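import Fermat.Agent.Curve.Jac.Descent.Count
import Fermat.Agent.Curve.Jac.Complex
import Fermat.Agent.Curve.ModularGenus
import Fermat.Agent.BAD.Lift.Root
import Fermat.Agent.ES.Tate.Padic

/-!
# The genus of `X₀(N)` is half the rank of the parabolic homomorphisms

Both count the torsion classes of a large prime exponent.
-/

set_option autoImplicit false

open UpperHalfPlane hiding I
open AlgebraicCurve Module
open CongruenceSubgroup (Gamma0)
open scoped MatrixGroups

noncomputable section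

namespace FermatAgent.BAD.AtP

open FermatAgent.Curve (jField rGenus)
open FermatAgent.Flat.Kummer (IsKummer)
open FermatAgent.ES (parGroup IsParChar zU padChar)
open FermatAgent.Period (parRank parElt parMap parBasis ParQuot)

attribute [local instance] Mazur.embAlg

local notation "Qb" => AlgebraicClosure ℚ

variable {N : ℕ} [NeZero N]

/-- The multipliers of torsion classes are parabolic. -/
theorem isParChar_of_isKummer {n : ℕ} [NeZero n] {φ : Gamma0 N →* ℂˣ}
    {c : Pic0 Qb (jField Qb N)} (h : IsKummer n φ c) : IsParChar (Gamma0 N) φ := by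
  have hφn := h.pow_eq_one
  obtain ⟨D, f, g, -, -, hD, hg, hg0, hm, hr, hl⟩ := h
  exact Lift.isParChar_of_root hD hφn hg0 (fun k =>
    Flat.Kummer.act_mem_regSub_of_pow (Nat.pos_of_ne_zero (NeZero.ne n)) hg (hr k)) hm hl

/-- Parabolic characters of large prime exponent are determined on the dual elements. -/
theorem exists_bound_parChar : ∃ B : ℕ, ∀ ℓ : ℕ, ℓ.Prime → B < ℓ →
    ∀ φ ψ : parGroup (Gamma0 N) ℓ, (∀ i, (φ : Gamma0 N →* ℂˣ) (parElt _ i) =
      (ψ : Gamma0 N →* ℂˣ) (parElt _ i)) → φ = ψ := by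
  set T := Submodule.torsion ℤ (ParQuot (Gamma0 N))
  have : Finite T := Module.finite_of_fg_torsion T Submodule.torsion_isTorsion
  refine ⟨Nat.card T, fun ℓ hℓ hB φ ψ h => ?_⟩
  suffices key : ∀ χ : parGroup (Gamma0 N) ℓ,
      (∀ i, (χ : Gamma0 N →* ℂˣ) (parElt _ i) = 1) → χ = 1 by
    refine mul_inv_eq_one.1 (key (φ * ψ⁻¹) fun i => ?_)
    rw [Subgroup.coe_mul, MonoidHom.mul_apply, Subgroup.coe_inv, MonoidHom.inv_apply, h i,
      mul_inv_cancel]
  intro χ hχ
  set a : Additive (Abelianization (Gamma0 N)) →+ Additive ℂˣ :=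
    MonoidHom.toAdditive (Abelianization.lift (χ : Gamma0 N →* ℂˣ))
  have hker : Period.parKer (Gamma0 N) ≤ a.ker := (AddSubgroup.closure_le _).mpr (by
    rintro _ ⟨γ, hγ, rfl⟩
    exact congrArg Additive.ofMul (χ.2.2 γ hγ))
  set b : ParQuot (Gamma0 N) →ₗ[ℤ] Additive ℂˣ :=
    (QuotientAddGroup.lift (Period.parKer (Gamma0 N)) a hker).toIntLinearMap
  set π : Additive (Gamma0 N) →+ ParQuot (Gamma0 N) :=
    (QuotientAddGroup.mk' (Period.parKer (Gamma0 N))).comp
      (MonoidHom.toAdditive Abelianization.of)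
  have hb : ∀ γ : Gamma0 N, b (π (Additive.ofMul γ)) = Additive.ofMul ((χ : Gamma0 N →* ℂˣ) γ) :=
    fun γ => rfl
  have hℓb : ∀ x, (ℓ : ℕ) • b x = 0 := by
    intro x
    obtain ⟨y, rfl⟩ := QuotientAddGroup.mk'_surjective _ x
    obtain ⟨γ, hγ⟩ : ∃ γ : Gamma0 N, Additive.ofMul (Abelianization.of γ) = y :=
      Quotient.mk''_surjective (Additive.toMul y)
    rw [← hγ]
    show ℓ • Additive.ofMul ((χ : Gamma0 N →* ℂˣ) γ) = 0
    rw [← ofMul_pow, ← MonoidHom.pow_apply, χ.2.1, MonoidHom.one_apply, ofMul_one]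
  have hT : ∀ x ∈ T, b x = 0 := by
    intro x hx
    have h1 : Nat.card T • (⟨x, hx⟩ : T) = 0 := card_nsmul_eq_zero'
    have h2 : Nat.card T • b x = 0 := by
      rw [← map_nsmul]
      exact (congrArg b (congrArg Subtype.val h1)).trans (map_zero b)
    have hco : Nat.Coprime (Nat.card T) ℓ := Nat.Coprime.symm
      ((Nat.Prime.coprime_iff_not_dvd hℓ).2 fun hd =>
        absurd (Nat.le_of_dvd Nat.card_pos hd) (by omega))
    have h3 := (addOrderOf_dvd_iff_nsmul_eq_zero (x := b x)).2 h2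
    have h4 := (addOrderOf_dvd_iff_nsmul_eq_zero (x := b x)).2 (hℓb x)
    exact AddMonoid.addOrderOf_eq_one_iff.1 (Nat.eq_one_of_dvd_coprimes hco h3 h4)
  refine Subtype.ext (MonoidHom.ext fun γ => Additive.ofMul.injective ?_)
  rw [← hb]
  set x := π (Additive.ofMul γ)
  set y := ∑ i, ((parBasis (Gamma0 N)).repr (parMap _ (Additive.ofMul γ)) i) •
    π (Additive.ofMul (parElt (Gamma0 N) i))
  have hxy : x - y ∈ T := by
    rw [← Submodule.ker_mkQ T, LinearMap.mem_ker, map_sub, map_sum, sub_eq_zero]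
    simp only [map_smul]
    show parMap _ (Additive.ofMul γ) = ∑ i, _ • parMap _ (Additive.ofMul (parElt _ i))
    simp only [Period.parMap_parElt]
    exact ((parBasis (Gamma0 N)).sum_repr _).symm
  have hy : b y = 0 := by
    rw [map_sum]
    refine Finset.sum_eq_zero fun i _ => ?_
    rw [map_smul, hb, hχ, ofMul_one, smul_zero]
  rw [← sub_add_cancel x y, map_add, hy, hT _ hxy, add_zero]
  simp

variable (N)

/-- **Twice the genus of `X₀(N)` is the rank of the parabolic homomorphisms of `Γ₀(N)`.** -/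
theorem two_mul_genusFF_eq_parRank :
    2 * genusFF Qb (jField Qb N) = parRank (Gamma0 N) := by
  obtain ⟨B, hB⟩ := exists_bound_parChar (N := N)
  obtain ⟨ℓ, hℓB, hℓ⟩ := Nat.exists_infinite_primes (B + 1)
  have := Fact.mk hℓ
  have : NeZero ℓ := ⟨hℓ.ne_zero⟩
  set r := parRank (Gamma0 N)
  have hcard : Nat.card (Pic0.torsion Qb (jField Qb N) ℓ) =
      ℓ ^ (2 * genusFF Qb (jField Qb N)) :=
    Curve.Jac.Descent.natCard_torsion_of_complex Curve.Jac.complexCount hℓ.pos
  have : Finite (Pic0.torsion Qb (jField Qb N) ℓ) :=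
    Nat.finite_of_card_ne_zero (by rw [hcard]; exact pow_ne_zero _ hℓ.ne_zero)
  have hnsmul : ∀ c : Pic0.torsion Qb (jField Qb N) ℓ, ℓ • (c : Pic0 Qb (jField Qb N)) = 0 :=
    fun c => by rw [← natCast_zsmul]; exact Pic0.mem_torsion.1 c.2
  refine le_antisymm ?_ ?_
  · -- at most one class for each vector of values
    choose φ hφ using fun c => Flat.Kummer.exists_isKummer hℓ.pos (hnsmul c)
    let F : Pic0.torsion Qb (jField Qb N) ℓ → parGroup (Gamma0 N) ℓ := fun c =>
      ⟨φ c, (hφ c).pow_eq_one, isParChar_of_isKummer (hφ c)⟩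
    choose v hv using fun (c : Pic0.torsion Qb (jField Qb N) ℓ) (i : Fin r) =>
      ES.exists_zU_eq (n := ℓ) (show (φ c (parElt _ i)) ^ ℓ = 1 by
        rw [← MonoidHom.pow_apply, (hφ c).pow_eq_one]; rfl)
    have hinj : Function.Injective v := fun c d h => by
      have e : F c = F d := hB ℓ hℓ (by omega) _ _ fun i => by
        show φ c (parElt _ i) = φ d (parElt _ i)
        rw [← hv, ← hv, h]
      have e' : φ c = φ d := congrArg Subtype.val e
      exact Subtype.ext ((hφ c).class_unique hℓ.pos (e' ▸ hφ d))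
    have := Nat.card_le_card_of_injective v hinj
    rw [hcard, Nat.card_fun, Nat.card_fin, Nat.card_zmod] at this
    exact (Nat.pow_le_pow_iff_right hℓ.one_lt).1 this
  · -- a class for each vector
    let lift : (Fin r → ZMod ℓ) → parGroup (Gamma0 N) (ℓ ^ 1) := fun v => padChar ℓ 1
      ((Period.parabolicCoords (Gamma0 N) ℤ_[ℓ] ℤ_[ℓ]).symm fun i => ((v i).val : ℤ_[ℓ]))
    have hval : ∀ v i, (lift v : Gamma0 N →* ℂˣ) (parElt _ i) =
        zU (ℓ ^ 1) (Multiplicative.ofAdd (((v i).val : ℕ) : ZMod (ℓ ^ 1))) := fun v i => by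
      rw [ES.padChar_apply]
      congr 2
      rw [show (((Period.parabolicCoords (Gamma0 N) ℤ_[ℓ] ℤ_[ℓ]).symm
            fun i => ((v i).val : ℤ_[ℓ]))).1 (Additive.ofMul (parElt _ i)) =
              ((v i).val : ℤ_[ℓ]) from
        congrFun ((Period.parabolicCoords (Gamma0 N) ℤ_[ℓ] ℤ_[ℓ]).apply_symm_apply _) i,
        map_natCast]
    choose c hc using fun v => Flat.Kummer.exists_isKummer_of_char
      (pow_pos hℓ.pos 1) (lift v) fun δ hδ =>
        ES.padChar_of_isOfFinOrder ℓ 1 _ hδ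
    let G : (Fin r → ZMod ℓ) → Pic0.torsion Qb (jField Qb N) ℓ := fun v => ⟨c v, by
      rw [Pic0.mem_torsion, natCast_zsmul]
      simpa using (hc v).nsmul_eq_zero⟩
    have hinj : Function.Injective G := fun v w h => by
      have e : c v = c w := congrArg Subtype.val h
      have hn : 0 < ℓ ^ 1 := pow_pos hℓ.pos 1
      have h1 := (hc v).mul ((hc w).pow (ℓ ^ 1 - 1))
      rw [e, ← succ_nsmul', Nat.sub_add_cancel hn, (hc w).nsmul_eq_zero] at h1
      have h2 := h1.eq_one hn
      have h3 : (lift v : Gamma0 N →* ℂˣ) = lift w := MonoidHom.ext fun γ => by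
        have e1 := DFunLike.congr_fun h2 γ
        have e2 := DFunLike.congr_fun (hc w).pow_eq_one γ
        simp only [MonoidHom.mul_apply, MonoidHom.pow_apply, MonoidHom.one_apply] at e1 e2
        have e3 : (lift w : Gamma0 N →* ℂˣ) γ ^ (ℓ ^ 1 - 1) * (lift w : Gamma0 N →* ℂˣ) γ = 1 := by
          rw [← pow_succ, Nat.sub_add_cancel hn, e2]
        exact mul_right_cancel (e1.trans ((mul_comm _ _).trans e3).symm)
      funext i
      have h4 := DFunLike.congr_fun h3 (parElt _ i)
      rw [hval, hval] at h4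
      have h5 := congrArg ZMod.val (Multiplicative.ofAdd.injective (ES.zU_injective _ h4))
      rw [ZMod.val_natCast, ZMod.val_natCast, pow_one, Nat.mod_eq_of_lt (ZMod.val_lt _),
        Nat.mod_eq_of_lt (ZMod.val_lt _)] at h5
      exact ZMod.val_injective _ h5
    have := Nat.card_le_card_of_injective G hinj
    rw [hcard, Nat.card_fun, Nat.card_fin, Nat.card_zmod] at this
    exact (Nat.pow_le_pow_iff_right hℓ.one_lt).1 this

end FermatAgent.BAD.AtP
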