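import Fermat.Agent.Curve.Jac.Genus

/-!
# Divisors of degree at least `2g - 1` are non special

For a divisor `D` with a non-trivial first repartition cohomology `deg D ≤ 2g - 2`; hence `l (D) =
deg D + 1 - g` as soon as `deg D ≥ 2g - 1`, and `l (D) ≤ g` in degree `2g - 2`.
-/

set_option autoImplicit false

noncomputable section

open AlgebraicCurve Module

namespace FermatAgent.BAD.AtP

open FermatAgent.Curve (rrDim rrDef rGenus OrdGE mem_riemannRochSpace rrDef_le_rGenus rrDim_mono
  riemannRochSpace_eq_bot_of_degree_neg deg_eq_one exists_place IsFF)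
open FermatAgent.Curve.Jac (repSum finrank_H1)

variable {K F : Type*} [Field K] [Field F] [Algebra K F] [IsAlgClosed K] [IsFF K F]

/-- Multiplication by a function on repartitions. -/
def repMul (e : F) : ↥(repartitions K F) →ₗ[K] ↥(repartitions K F) :=
  (LinearMap.lsmul F ↥(repartitions K F) e).restrictScalars K

omit [IsAlgClosed K] [IsFF K F] in
theorem repMul_apply (e : F) (α : ↥(repartitions K F)) (v : Place K F) :
    (repMul e α : Place K F → F) v = e * (α : Place K F → F) v := rfl

omit [IsAlgClosed K] [IsFF K F] in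
theorem repMul_mem_repSum {D E : Divisor K F} {e : F} (he : e ∈ riemannRochSpace E)
    {α : ↥(repartitions K F)} (hα : α ∈ repSum (D - E)) : repMul e α ∈ repSum D := by
  obtain ⟨a, ha, b, hb, rfl⟩ := Submodule.mem_sup.1 hα
  rw [map_add]
  refine Submodule.add_mem _ (Submodule.mem_sup_left ?_) (Submodule.mem_sup_right ?_)
  · refine mem_repartitionsOf_iff.2 fun v => ?_
    rw [repMul_apply]
    have h1 : OrdGE v (-E v) e := mem_riemannRochSpace.1 he v
    have h2 : OrdGE v (-(D - E) v) ((a : Place K F → F) v) := mem_repartitionsOf_iff.1 ha v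
    exact (h1.mul h2).mono (by rw [Finsupp.sub_apply]; omega)
  · obtain ⟨f, hf⟩ := mem_principalRepartitions_iff.1 hb
    refine mem_principalRepartitions_iff.2 ⟨e * f, funext fun v => ?_⟩
    rw [repMul_apply, hf]

/-- **Special divisors have degree at most `2g - 2`.** -/
theorem degree_le_of_nontrivial (D : Divisor K F) (h : Nontrivial (H1 D)) :
    Divisor.degree D ≤ 2 * rGenus K F - 2 := by
  classical
  obtain ⟨v⟩ := exists_place (K := K) (F := F)
  have := (finrank_H1 D).1
  obtain ⟨x, hx⟩ := exists_ne (0 : H1 D)
  obtain ⟨φ, hφ⟩ := Module.Projective.exists_dual_ne_zero K hx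
  obtain ⟨α₀, rfl⟩ := Submodule.Quotient.mk_surjective _ x
  set Φ : ↥(repartitions K F) →ₗ[K] K := φ.comp (Submodule.mkQ _)
  have hΦ : ∀ α ∈ repSum D, Φ α = 0 := fun α hα => by
    exact (congrArg φ ((Submodule.Quotient.mk_eq_zero _).2 hα)).trans (map_zero φ)
  set E : Divisor K F := Finsupp.single v (|Divisor.degree D| + |rGenus K F| + 1)
  have hE : Divisor.degree E = |Divisor.degree D| + |rGenus K F| + 1 := by
    simp [E, deg_eq_one v]
  let T : riemannRochSpace E →ₗ[K] Module.Dual K (H1 (D - E)) :=
    { toFun := fun e => Submodule.liftQ _ (Φ.comp (repMul (e : F))) fun α hα => by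
        rw [LinearMap.mem_ker, LinearMap.comp_apply]
        exact hΦ _ (repMul_mem_repSum e.2 hα)
      map_add' := fun e e' => Submodule.linearMap_qext _ (LinearMap.ext fun α => by
        show Φ (repMul ((e : F) + (e' : F)) α) = Φ (repMul (e : F) α) + Φ (repMul (e' : F) α)
        rw [← map_add]
        exact congrArg Φ (Subtype.ext (funext fun w => by
          show ((e : F) + (e' : F)) * _ = (e : F) * _ + (e' : F) * _
          ring)))
      map_smul' := fun c e => Submodule.linearMap_qext _ (LinearMap.ext fun α => by
        show Φ (repMul (c • (e : F)) α) = c • Φ (repMul (e : F) α)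
        rw [← map_smul]
        exact congrArg Φ (Subtype.ext (funext fun w => smul_mul_assoc c (e : F) _))) }
  have hinj : Function.Injective T := by
    rw [injective_iff_map_eq_zero]
    intro e he
    by_contra he0
    have h0 : (e : F) ≠ 0 := fun h => he0 (Subtype.ext h)
    have h1 : Φ (repMul (e : F) ((e : F)⁻¹ • α₀)) = 0 :=
      LinearMap.congr_fun he (Submodule.Quotient.mk ((e : F)⁻¹ • α₀))
    rw [show repMul (e : F) ((e : F)⁻¹ • α₀) = α₀ from smul_inv_smul₀ h0 α₀] at h1
    exact hφ h1
  have := (finrank_H1 (D - E)).1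
  have h1 := LinearMap.finrank_le_finrank_of_injective hinj
  rw [Subspace.dual_finrank_eq] at h1
  have h2 := (finrank_H1 (D - E)).2
  have h3 : rrDim (D - E) = 0 := by
    rw [rrDim, riemannRochSpace_eq_bot_of_degree_neg (by
      rw [map_sub, hE]
      have := le_abs_self (Divisor.degree D)
      have := abs_nonneg (rGenus K F)
      omega), finrank_bot]
  have h4 := rrDef_le_rGenus E
  rw [rrDef] at h2 h4
  change rrDim E ≤ _ at h1
  rw [map_sub, h3] at h2
  omega

/-- **Non special divisors.** -/
theorem rrDim_eq_of_large (D : Divisor K F) (h : 2 * rGenus K F - 1 ≤ Divisor.degree D) :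
    (rrDim D : ℤ) = Divisor.degree D + 1 - rGenus K F := by
  have h2 := (finrank_H1 D).2
  have : Subsingleton (H1 D) := not_nontrivial_iff_subsingleton.1 fun hn => by
    have := degree_le_of_nontrivial D hn
    omega
  rw [finrank_zero_of_subsingleton, rrDef] at h2
  push_cast at h2
  omega

/-- A divisor of degree `2g - 2` has at most `g` sections. -/
theorem rrDim_le_of_canonical_degree (D : Divisor K F)
    (h : Divisor.degree D = 2 * rGenus K F - 2) : (rrDim D : ℤ) ≤ rGenus K F := by
  classical
  obtain ⟨v⟩ := exists_place (K := K) (F := F)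
  have h1 := rrDim_eq_of_large (D + Finsupp.single v 1) (by
    rw [map_add, Divisor.degree_single, deg_eq_one v]; push_cast; omega)
  have h2 := rrDim_mono (D := D) (E := D + Finsupp.single v 1) fun w => by
    simp only [Finsupp.add_apply, Finsupp.single_apply]
    split_ifs <;> omega
  rw [map_add, Divisor.degree_single, deg_eq_one v] at h1
  push_cast at h1
  omega

end FermatAgent.BAD.AtP
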