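import Fermat.Agent.Curve.ModularGenus
import Fermat.Prelude.Def_ModularCurve_GenusNumerics
import Fermat.Agent.Mazur.ModFun

/-!
# The derivation by `j` on the function field of `X₀(N)` and the divisor of `dj`

The derivation `u ↦ du / dj` is defined, its effect on expansions is `θ u = (du / dj) θ j`, and
the divisor of `dj` is computed: `v (j - a) - 1` at a finite place and `v j - 1` at a pole of `j`;
its degree is given by the index and the numbers of elliptic points and cusps.
-/

set_option autoImplicit false

open AlgebraicCurve KaehlerDifferential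
open CongruenceSubgroup (Gamma0)
open scoped MatrixGroups

noncomputable section

namespace FermatAgent.BAD.AtP

open FermatAgent.Curve (jField jElt theta theta_mul transcendental_jElt exists_eq_smul_D D_ne_zero
  ordDifferential_D ordDifferential_smul' OrdGE exists_value exists_sub_algebraMap ordGE_iff_le
  poleDivisor)

attribute [local instance] Mazur.embAlg
attribute [local instance high] SubalgebraClass.toAlgebra
attribute [-instance] IsLocalRing.ResidueField.algebraOfIsIntegral IntermediateField.module'

local notation "Qb" => AlgebraicClosure ℚ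

variable {N : ℕ} [NeZero N]

local notation "E" => jField Qb N

/-- A derivation multiple of `dj`. -/
theorem exists_der (u : E) : ∃ c : E, c • D Qb E (jElt Qb N) = D Qb E u :=
  exists_eq_smul_D transcendental_jElt _

/-- `du / dj`. -/
def der (u : E) : E := (exists_der u).choose

theorem der_smul_D (u : E) : der u • D Qb E (jElt Qb N) = D Qb E u := (exists_der u).choose_spec

/-- Constant series are killed by `θ = q d/dq`. -/
theorem theta_algebraMap (a : Qb) : theta (algebraMap Qb (LaurentSeries Qb) a) = 0 := by
  rw [Curve.algebraMap_laurent, Curve.theta_single]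
  simp

theorem smul_laurent (a : Qb) (w : LaurentSeries Qb) :
    a • w = algebraMap Qb (LaurentSeries Qb) a * w := by
  ext j
  rw [HahnSeries.algebraMap_apply', PowerSeries.algebraMap_apply, HahnSeries.ofPowerSeries_C,
    HahnSeries.C_mul_eq_smul]
  simp

/-- `θ u = (du / dj) θ j` on expansions. -/
theorem theta_eq_der (u : E) :
    theta (u : LaurentSeries Qb) =
      (der u : LaurentSeries Qb) * theta (jElt Qb N : LaurentSeries Qb) := by
  let : Algebra E (LaurentSeries Qb) := (jField Qb N).val.toRingHom.toAlgebra
  have : IsScalarTower Qb E (LaurentSeries Qb) := ⟨fun a f z => by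
    show ((a • f : E) : LaurentSeries Qb) * z = a • ((f : LaurentSeries Qb) * z)
    rw [smul_laurent a, show ((a • f : E) : LaurentSeries Qb) = algebraMap Qb (LaurentSeries Qb) a *
      (f : LaurentSeries Qb) by rw [Algebra.smul_def, MulMemClass.coe_mul]; rfl, mul_assoc]⟩
  let d : Derivation Qb E (LaurentSeries Qb) := Derivation.mk'
    { toFun := fun f => theta (f : LaurentSeries Qb)
      map_add' := fun f g => by rw [AddMemClass.coe_add, map_add]
      map_smul' := fun a f => by
        rw [RingHom.id_apply, smul_laurent a (theta (f : LaurentSeries Qb)),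
          show ((a • f : E) : LaurentSeries Qb) = algebraMap Qb (LaurentSeries Qb) a *
            (f : LaurentSeries Qb) by rw [Algebra.smul_def, MulMemClass.coe_mul]; rfl,
          theta_mul, theta_algebraMap, mul_zero, add_zero] }
    (fun a b => by
      show theta ((a * b : E) : LaurentSeries Qb) =
        (a : LaurentSeries Qb) • theta (b : LaurentSeries Qb) +
        (b : LaurentSeries Qb) • theta (a : LaurentSeries Qb)
      rw [MulMemClass.coe_mul, theta_mul, smul_eq_mul, smul_eq_mul])
  have h := congrArg d.liftKaehlerDifferential (der_smul_D u)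
  rw [map_smul, Derivation.liftKaehlerDifferential_comp_D,
    Derivation.liftKaehlerDifferential_comp_D] at h
  exact h.symm

/-- The divisor of `dj` exists; its degree is given by the ramification of `j`. -/
theorem exists_divisor_dj : ∃ W : Divisor Qb E,
    (∀ v, W v = v.ordDifferential (D Qb E (jElt Qb N))) ∧
    6 * Divisor.degree W + 3 * ModularCurve.nuTwo N + 4 * ModularCurve.nuThree N +
      6 * ModularCurve.cuspCount N = ModularCurve.dedekindPsi N := by
  classical
  have hne : (0 : Qb) ≠ 1728 := by norm_num
  obtain ⟨W, hW, hdeg⟩ := Curve.exists_divisor_D (x := jElt Qb N) transcendental_jElt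
    ({0, 1728} : Finset Qb) fun a ha v hv => by
      simp only [Finset.mem_insert, Finset.mem_singleton, not_or] at ha
      exact Curve.simple_zero Qb N ha.1 ha.2 hv
  refine ⟨W, hW, ?_⟩
  rw [Finset.card_pair hne, Finset.sum_pair hne, Curve.card_zeros_zero, Curve.card_zeros_1728,
    Curve.card_poles, Curve.finrank_jField] at hdeg
  have h2 := Curve.two_mul_numOrbits_S N
  have h3 := Curve.three_mul_numOrbits_ST N
  have hT := Curve.numOrbits_T N
  have hn := Curve.card_cosets N
  rw [hdeg]
  push_cast
  omega

variable (N) in
/-- The divisor of `dj`. -/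
def djDiv : Divisor Qb (jField Qb N) := (exists_divisor_dj (N := N)).choose

theorem djDiv_apply (v : Place Qb E) : djDiv N v = v.ordDifferential (D Qb E (jElt Qb N)) :=
  (exists_divisor_dj (N := N)).choose_spec.1 v

variable (N) in
/-- **The degree of the divisor of `dj`**, from the index and the numbers of elliptic points and
of cusps of `Γ₀(N)`. -/
theorem six_mul_degree_djDiv :
    6 * Divisor.degree (djDiv N) + 3 * ModularCurve.nuTwo N + 4 * ModularCurve.nuThree N +
      6 * ModularCurve.cuspCount N = ModularCurve.dedekindPsi N :=
  (exists_divisor_dj (N := N)).choose_spec.2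

/-- At a place above `j = a` the order of `dj` is the ramification index minus one. -/
theorem djDiv_finite {v : Place Qb E} {a : Qb}
    (ha : 0 < v.ord (jElt Qb N - algebraMap Qb E a)) :
    djDiv N v = v.ord (jElt Qb N - algebraMap Qb E a) - 1 := by
  rw [djDiv_apply, ordDifferential_D v ha.ne']

/-- At a pole of `j` the order of `dj` is the order of `j` minus one. -/
theorem djDiv_pole {v : Place Qb E} (h : v.ord (jElt Qb N) < 0) :
    djDiv N v = v.ord (jElt Qb N) - 1 := by
  have h1 : v.ord (jElt Qb N - algebraMap Qb E 0) ≠ 0 := by rw [map_zero, sub_zero]; exact h.ne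
  rw [djDiv_apply, ordDifferential_D v h1, map_zero, sub_zero]

/-- The bound for `du / dj`: no new pole where `u` is regular. -/
theorem ordGE_der (v : Place Qb E) {u : E} (hu : OrdGE v 0 u) :
    OrdGE v (-djDiv N v) (der u) := by
  obtain ⟨a, ha⟩ := exists_sub_algebraMap v hu
  rcases eq_or_ne (u - algebraMap Qb E a) 0 with h0 | h0
  · left
    have h := der_smul_D u
    rw [sub_eq_zero.1 h0, Derivation.map_algebraMap, smul_eq_zero] at h
    rcases h with h | h
    · rw [sub_eq_zero.1 h0]; exact h
    · exact absurd h (D_ne_zero transcendental_jElt)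
  · have he : 1 ≤ v.ord (u - algebraMap Qb E a) := (ordGE_iff_le h0).1 ha
    have hD : D Qb E u ≠ 0 := fun h => by
      have h1 := ordDifferential_D v (f := u) (a := a) (by omega)
      have h2 : D Qb E (u - algebraMap Qb E a) = 0 := by
        rw [map_sub, h, Derivation.map_algebraMap, sub_zero]
      exact D_ne_zero (F := E) (Curve.transcendental_of_ord_ne_zero (v := v) (by omega)) h2
    have hc : der u ≠ 0 := fun h => hD (by rw [← der_smul_D u, h, zero_smul])
    right
    have h1 := ordDifferential_smul' v hc (D_ne_zero (F := E) transcendental_jElt)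
    rw [der_smul_D, ordDifferential_D v (f := u) (a := a) (by omega), ← djDiv_apply] at h1
    omega

/-- The bound for logarithmic derivatives. -/
theorem ordGE_der_div (v : Place Qb E) (u : E) :
    OrdGE v (-djDiv N v - 1) (der u / u) := by
  rcases eq_or_ne u 0 with rfl | hu
  · exact Or.inl (by simp)
  by_cases h : v.ord u = 0
  · have h1 := (ordGE_der v (u := u) (Or.inr h.ge)).mul
      (show OrdGE v 0 u⁻¹ from Or.inr (by rw [Place.ord_inv]; omega))
    rw [← div_eq_mul_inv] at h1
    exact h1.mono (by omega)
  · rcases eq_or_ne (der u) 0 with hd | hd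
    · exact Or.inl (by rw [hd, zero_div])
    right
    have h0 : v.ord (u - algebraMap Qb E 0) ≠ 0 := by rw [map_zero, sub_zero]; exact h
    have h1 := ordDifferential_smul' v hd (D_ne_zero (F := E) transcendental_jElt)
    rw [der_smul_D, ordDifferential_D v h0, ← djDiv_apply, map_zero, sub_zero] at h1
    rw [div_eq_mul_inv, v.ord_mul hd (inv_ne_zero hu), Place.ord_inv]
    omega

variable (N) in
/-- The sum of the cusps. -/
def cuspDiv : Divisor Qb (jField Qb N) :=
  ∑ v ∈ (Curve.finite_ord_pos (K := Qb) (jElt Qb N)⁻¹).toFinset, Finsupp.single v 1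

/-- The sum of the cusps is `1` at the poles of `j` and `0` elsewhere. -/
theorem cuspDiv_apply (v : Place Qb E) :
    cuspDiv N v = if v.ord (jElt Qb N) < 0 then 1 else 0 := by
  classical
  simp only [cuspDiv, Finsupp.finsetSum_apply, Finsupp.single_apply, Finset.sum_ite_eq',
    Set.Finite.mem_toFinset, Set.mem_ofPred_eq, Place.ord_inv, neg_pos]

/-- The sum of the cusps is effective. -/
theorem cuspDiv_nonneg : (0 : Divisor Qb E) ≤ cuspDiv N := fun v => by
  rw [cuspDiv_apply, Finsupp.zero_apply]; split_ifs <;> omega

end FermatAgent.BAD.AtP
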