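import Fermat.Agent.BAD.AtP.Curve.RedForms
import Fermat.Agent.BAD.AtP.Def
import Fermat.Agent.MF.Lifting
import Fermat.Prelude.Def_ModularForm_HeckeOperatorForms
import Fermat.Prelude.Thm_ModularFormClass_qCoeff_heckeT

/-!
# Residual eigen differentials without residues vanish when the system is absent

If the residual orders are divisible by `p` away from the cusps for one function and at them for
the other, an eigen differential of the second is zero.
-/

set_option autoImplicit false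

open AlgebraicCurve Module ModularFormClass
open CongruenceSubgroup (Gamma0)
open ModularCurve (coeffMap jqModC modularFunctionFieldFullC)
open UpperHalfPlane hiding I
open scoped MatrixGroups

noncomputable section

namespace FermatAgent.BAD.AtP

open FermatAgent.Curve (jField jElt OrdGE IsFF HasLoc qw)
open FermatAgent.Mazur (lsC)

attribute [local instance] Mazur.embAlg
attribute [local instance high] SubalgebraClass.toAlgebra
attribute [-instance] IsLocalRing.ResidueField.algebraOfIsIntegral IntermediateField.module'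

local notation "Qb" => AlgebraicClosure ℚ
local notation "ZC" => integralClosure ℤ ℂ

/-- The coefficients of the Hecke operator of weight two. -/
def heckeC {R : Type*} [CommRing R] (ℓ : ℕ) (s : LaurentSeries R) (n : ℤ) : R :=
  s.coeff (n * ℓ) + if (ℓ : ℤ) ∣ n then (ℓ : R) * s.coeff (n / ℓ) else 0

/-- The Hecke operator of weight two on coefficients respects differences. -/
theorem heckeC_sub {R : Type*} [CommRing R] (ℓ : ℕ) (s t : LaurentSeries R) (n : ℤ) :
    heckeC ℓ (s - t) n = heckeC ℓ s n - heckeC ℓ t n := by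
  simp only [heckeC, HahnSeries.coeff_sub]
  split_ifs <;> ring

/-- The Hecke operator of weight two commutes with homomorphisms of the coefficients. -/
theorem heckeC_coeffMap {R S : Type*} [CommRing R] [CommRing S] (f : R →+* S) (ℓ : ℕ)
    (s : LaurentSeries R) (n : ℤ) :
    heckeC ℓ (coeffMap f s) n = f (heckeC ℓ s n) := by
  simp only [heckeC, ModularCurve.coeffMap_coeff, map_add]
  split_ifs <;> simp

/-- The `q`-coefficients of a form of weight two are those of its expansion at `∞`, which has no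
polar part. -/
theorem qCoeff_eq_coeff {L : ℕ} [NeZero L] {F : Type*} [FunLike F ℍ ℂ]
    [ModularFormClass F (Gamma0 L : Subgroup SL(2, ℤ)) 2] (f : F) {S : LaurentSeries ℂ}
    (h : HasLoc (qw 1) f S) :
    (∀ n : ℕ, qCoeff f n = S.coeff (n : ℤ)) ∧ ∀ j : ℤ, j < 0 → S.coeff j = 0 := by
  have h1 := hasLoc_qExpansion (w := 1) (g := (f : ℍ → ℂ)) (ModularFormClass.holo f)
    (by
      rw [Nat.cast_one]
      exact SlashInvariantFormClass.periodic_comp_ofComplex f
        (CongruenceSubgroup.one_mem_strictPeriods_Gamma0 L))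
    (ModularFormClass.bdd_at_infty f)
  rw [Nat.cast_one] at h1
  have e := h.unique (Curve.locCoord_qw one_pos) h1
  refine ⟨fun n => ?_, fun j hj => e ▸ ModularCurve.ofPowerSeries_coeff_of_neg _ hj⟩
  rw [e, HahnSeries.ofPowerSeries_apply_coeff]
  rfl

theorem cuspFunction_smul_analyticAt {L : ℕ} (f : ModularForm (Gamma0 L) 2)
    (hper : (1 : ℝ) ∈ ((Gamma0 L : Subgroup SL(2, ℤ)) : Subgroup (GL (Fin 2) ℝ)).strictPeriods)
    (a : ℂ) : AnalyticAt ℂ (cuspFunction 1 (a • (f : ℍ → ℂ))) 0 := by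
  simpa only [FunLike.coe_smul] using
    ModularFormClass.analyticAt_cuspFunction_zero (a • f) one_pos hper

variable {p : ℕ} [hp : Fact p.Prime] {A : ValuationSubring Qb} {L : ℕ} [NeZero L]

set_option hygiene false in
local notation "k" => IsLocalRing.ResidueField A
set_option hygiene false in
local notation "ρA" => IsLocalRing.residue A
set_option hygiene false in
local notation "Fb" => modularFunctionFieldFullC k L

omit hp in
/-- The residue field of a valuation ring above `p` has characteristic `p`. -/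
theorem natCast_prime_residue (hA : A.LiesOverPrime p) : (p : k) = 0 := by
  rw [← map_natCast ρA, IsLocalRing.residue_eq_zero_iff, IsLocalRing.mem_maximalIdeal,
    mem_nonunits_iff, A.valuation_eq_one_iff]
  intro h2
  rw [show (((p : A)) : Qb) = (p : Qb) from map_natCast A.subtype p] at h2
  exact (ECLocal.valuation_natCast_lt_one hA).ne h2

omit hp [NeZero L] in
/-- The coefficients of a series over `A` in `ℂ`. -/
theorem lsC_coeffMap_subtype_coeff (s : LaurentSeries A) (n : ℤ) :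
    (lsC (coeffMap A.subtype s)).coeff n = algebraMap Qb ℂ (A.subtype (s.coeff n)) := by
  rw [show lsC (coeffMap A.subtype s) =
    coeffMap ES.embC.toRingHom (coeffMap A.subtype s) from rfl,
    ModularCurve.coeffMap_coeff, ModularCurve.coeffMap_coeff]
  rfl

omit hp [NeZero L] in
/-- The coefficients of `T_ℓ f - (ℓ + 1) f`. -/
theorem qCoeff_heckeTLin_sub_smul (f : ModularForm (Gamma0 L) 2) {ℓ : ℕ} (hℓ : ℓ.Prime)
    (hℓL : ¬ ℓ ∣ L) (n : ℕ) :
    qCoeff (⇑(ModularForm.heckeTLin 2 hℓ hℓL f - ((ℓ : ℂ) + 1) • f) : ℍ → ℂ) n =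
      qCoeff (ModularForm.heckeT 2 ℓ ⇑f) n - ((ℓ : ℂ) + 1) * qCoeff f n := by
  have hper := CongruenceSubgroup.one_mem_strictPeriods_Gamma0 L
  show PowerSeries.coeff n
    (qExpansion 1 ⇑(ModularForm.heckeTLin 2 hℓ hℓL f - ((ℓ : ℂ) + 1) • f)) = _
  rw [FunLike.coe_sub, FunLike.coe_smul,
    qExpansion_sub (ModularFormClass.analyticAt_cuspFunction_zero
      (ModularForm.heckeTLin 2 hℓ hℓL f) one_pos hper)
      (cuspFunction_smul_analyticAt f hper _),
    qExpansion_smul (ModularFormClass.analyticAt_cuspFunction_zero f one_pos hper),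
    map_sub, PowerSeries.coeff_smul, smul_eq_mul]
  rfl

/-- A residual eigen series of a cusp form gives the system at level `L`. -/
theorem eq_zero_of_cuspForm (hA : A.LiesOverPrime p) {E : ℕ} {b : ℕ → ℕ} (hlow : NoLow p L E b)
    (f : CuspForm (Gamma0 L) 2) {s : LaurentSeries A}
    (hs : HasLoc (qw 1) f (lsC (coeffMap A.subtype s)))
    (heig : ∀ ℓ : ℕ, ℓ.Prime → ¬ ℓ ∣ E * (L * p) → ∀ n : ℤ,
      heckeC ℓ (coeffMap ρA s) n = (b ℓ : k) * (coeffMap ρA s).coeff n) :
    coeffMap ρA s = 0 := by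
  classical
  have : CharP k p := (CharP.charP_iff_prime_eq_zero hp.out).mpr (natCast_prime_residue hA)
  by_contra hne
  obtain ⟨hq, hneg⟩ := qCoeff_eq_coeff f hs
  obtain ⟨i, hi⟩ : ∃ i : ℤ, (coeffMap ρA s).coeff i ≠ 0 := by
    by_contra hc
    push Not at hc
    exact hne (HahnSeries.ext (funext hc))
  have hi0 : 0 ≤ i := by
    by_contra hlt
    have h1 := hneg i (not_le.1 hlt)
    rw [show lsC (coeffMap A.subtype s) =
      coeffMap ES.embC.toRingHom (coeffMap A.subtype s) from rfl, ModularCurve.coeffMap_coeff,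
      _root_.map_eq_zero, ModularCurve.coeffMap_coeff] at h1
    rw [ModularCurve.coeffMap_coeff, show s.coeff i = 0 from Subtype.ext h1, map_zero] at hi
    exact hi rfl
  lift i to ℕ using hi0
  set g : A →+* ℂ := (algebraMap Qb ℂ).comp A.subtype
  have hg : Function.Injective g := (algebraMap Qb ℂ).injective.comp Subtype.coe_injective
  have hqc : ∀ n : ℕ, qCoeff f n = g (s.coeff (n : ℤ)) := fun n => by rw [hq]; rfl
  set e : A ≃+* g.range := RingEquiv.ofBijective g.rangeRestrict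
    ⟨fun a b h => hg (congrArg Subtype.val h), g.rangeRestrict_surjective⟩
  set π : g.range →+* k := (ρA).comp e.symm.toRingHom
  have hπ : ∀ (a : A) (z : ℂ) (hz : z ∈ g.range), z = g a → π ⟨z, hz⟩ = ρA a := fun a z hz h => by
    show ρA (e.symm ⟨z, hz⟩) = ρA a
    congr 1
    rw [e.symm_apply_eq]
    exact Subtype.ext h
  set S : Set ℕ := {ℓ | ℓ ∣ E * (L * p)}
  obtain ⟨θ, hθ, -⟩ := MF.exists_hom_of_eigen_mod (S := S) one_le_two π f
    (fun n => ⟨_, (hqc n).symm⟩) (n₀ := i) (by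
      rw [hπ _ _ _ (hqc i), ← ModularCurve.coeffMap_coeff ρA]; exact hi)
    (fun ℓ => (b ℓ : k)) fun ℓ hℓ hS n => by
      have hℓL : ¬ ℓ ∣ L := fun h => hS (dvd_mul_of_dvd_right (dvd_mul_of_dvd_left h p) E)
      have h1 := heig ℓ hℓ hS n
      rw [heckeC_coeffMap, ModularCurve.coeffMap_coeff] at h1
      rw [hπ _ _ _ (hqc n), hπ (heckeC ℓ s n) _ _ ?_, h1]
      rw [MF.qCoeff_heckeAt hℓ f n, heckeC, hqc, map_add]
      unfold MF.heckeConst
      rw [if_neg hℓL, Nat.cast_mul, mul_comm (ℓ : ℤ)]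
      congr 1
      by_cases hd : ℓ ∣ n
      · rw [if_pos hd, if_pos (Int.natCast_dvd_natCast.2 hd), hqc, map_mul, map_natCast,
          ← Int.natCast_div]
        norm_num
      · rw [if_neg hd, if_neg (fun h => hd (Int.natCast_dvd_natCast.1 h)), mul_zero, map_zero]
  have : Module.Finite ℤ (CuspForm.heckeAlgebra L 2 ∅) :=
    MF.moduleFinite_heckeAlgebra_of_integralStructure (MF.hasIntegralStructure L 2)
  have hle : CuspForm.heckeAlgebra L 2 S ≤ CuspForm.heckeAlgebra L 2 ∅ :=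
    Algebra.adjoin_le fun t ht => by
      obtain ⟨ℓ, hℓ, -, rfl⟩ := MF.exists_eq_heckeAt_of_mem_heckeGenerators ht
      exact MF.heckeAt_mem hℓ (Set.notMem_empty ℓ)
  let : Algebra (CuspForm.heckeAlgebra L 2 S) (CuspForm.heckeAlgebra L 2 ∅) :=
    (Subalgebra.inclusion hle).toRingHom.toAlgebra
  have : IsScalarTower ℤ (CuspForm.heckeAlgebra L 2 S) (CuspForm.heckeAlgebra L 2 ∅) :=
    IsScalarTower.of_algebraMap_eq fun r => ((Subalgebra.inclusion hle).commutes r).symm
  have : Algebra.IsIntegral ℤ (CuspForm.heckeAlgebra L 2 ∅) := Algebra.IsIntegral.of_finite ℤ _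
  have : Algebra.IsIntegral (CuspForm.heckeAlgebra L 2 S) (CuspForm.heckeAlgebra L 2 ∅) :=
    ⟨fun x => (Algebra.IsIntegral.isIntegral (R := ℤ) x).tower_top⟩
  have := RingHom.ker_isPrime θ
  obtain ⟨Q, -, hQ, hQc⟩ := Ideal.exists_ideal_over_prime_of_isIntegral (RingHom.ker θ)
    (⊥ : Ideal (CuspForm.heckeAlgebra L 2 ∅)) (by
      intro x hx
      rw [Ideal.mem_comap, Ideal.mem_bot] at hx
      rw [show x = 0 from Subalgebra.inclusion_injective hle (hx.trans (map_zero _).symm)]
      exact Submodule.zero_mem _)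
  have hpQ : ((p : ℕ) : CuspForm.heckeAlgebra L 2 ∅) ∈ Q := by
    rw [← map_natCast (algebraMap (CuspForm.heckeAlgebra L 2 S) (CuspForm.heckeAlgebra L 2 ∅)),
      ← Ideal.mem_comap, hQc, RingHom.mem_ker, map_natCast, natCast_prime_residue hA]
  have hQmax : Q.IsMaximal := by
    have := hQ
    have : Algebra.IsIntegral ℤ (CuspForm.heckeAlgebra L 2 ∅) := inferInstance
    refine Ideal.isMaximal_of_isIntegral_of_isMaximal_comap (R := ℤ) Q ?_
    have hpr : (Q.comap (algebraMap ℤ _)).IsPrime := Q.comap_isPrime _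
    refine hpr.isMaximal fun h0 => hp.out.ne_zero ?_
    have hm : ((p : ℕ) : ℤ) ∈ Q.comap (algebraMap ℤ (CuspForm.heckeAlgebra L 2 ∅)) := by
      rw [Ideal.mem_comap, map_natCast]; exact hpQ
    rw [h0, Ideal.mem_bot] at hm
    exact_mod_cast hm
  obtain ⟨g', χ, 𝔐, hg', -, hχ, h𝔐, hcomap⟩ :=
    MF.exists_isEigen_lift (MF.hasIntegralStructure L 2) Q
  refine hlow ⟨g', 𝔐, (MF.isEigen_iff_isNormalizedEigenform g').1 hg', h𝔐, ?_,
    fun ℓ hℓ hS => ⟨_, hχ ℓ hℓ, ?_⟩⟩
  · rw [← hcomap, Ideal.mem_comap, map_natCast] at hpQ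
    exact hpQ
  · have hx : (⟨_, MF.heckeAt_mem hℓ hS⟩ - (b ℓ : CuspForm.heckeAlgebra L 2 S)) ∈
        RingHom.ker θ := by
      rw [RingHom.mem_ker, map_sub, hθ ℓ hℓ hS, map_natCast, sub_self]
    rw [← hQc, Ideal.mem_comap, ← hcomap, Ideal.mem_comap, map_sub, map_sub, map_natCast,
      map_natCast] at hx
    exact hx

variable [IsFF k (modularFunctionFieldFullC k L)]

theorem ModRed.Cb_eq_zero (m : ModRed A L) {Q : Place k Fb} (hQ : 0 ≤ Q.ord (m.S.red m.x)) :
    m.Cb Q = 0 := by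
  classical
  have := isAlgClosed_residueField A
  by_contra hne
  obtain ⟨P, hP, rfl⟩ := Finset.mem_image.1
    (Finsupp.mapDomain_support (Finsupp.mem_support_iff.2 hne))
  rw [Finsupp.mem_support_iff, cuspDiv_apply] at hP
  by_cases h : P.ord (jElt Qb L) < 0
  · exact not_lt.2 hQ (m.S.ord_red_neg m.mapDomain_pole (m.x_eq.symm ▸ h))
  · rw [if_neg h] at hP; exact hP rfl

/-- **Eigen logarithmic differentials without residues vanish.** -/
theorem ModRed.log_eq_zero (m : ModRed A L) (hA : A.LiesOverPrime p) {E : ℕ} {b : ℕ → ℕ}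
    (hlow : NoLow p L E b)
    {ℓ0 : ℕ} (hℓ0 : ℓ0.Prime) (hℓ0S : ¬ ℓ0 ∣ E * (L * p)) (hℓ0b : (b ℓ0 : k) ≠ (ℓ0 : k) + 1)
    {gb1 gb2 v1 v2 : Fb} (h1 : gb1 ≠ 0) (h2 : gb2 ≠ 0) (hv1 : HasLog gb1 v1) (hv2 : HasLog gb2 v2)
    (hfin : ∀ Q : Place k Fb, 0 ≤ Q.ord (m.S.red m.x) → (p : ℤ) ∣ Q.ord gb1)
    (hcusp : ∀ Q : Place k Fb, Q.ord (m.S.red m.x) < 0 → (p : ℤ) ∣ Q.ord gb2)
    (heig : ∀ ℓ : ℕ, ℓ.Prime → ¬ ℓ ∣ E * (L * p) → ∀ n : ℤ,
      heckeC ℓ ((v2 : LaurentSeries k) * thetaSer (jqModC k)) n =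
        (b ℓ : k) * ((v2 : LaurentSeries k) * thetaSer (jqModC k)).coeff n)
    (hdiff : ∀ n : ℤ, heckeC ℓ0 ((v2 : LaurentSeries k) * thetaSer (jqModC k) -
        (v1 : LaurentSeries k) * thetaSer (jqModC k)) n =
      ((ℓ0 : k) + 1) * ((v2 : LaurentSeries k) * thetaSer (jqModC k) -
        (v1 : LaurentSeries k) * thetaSer (jqModC k)).coeff n) :
    v2 = 0 := by
  have := isAlgClosed_residueField A
  have hpk := natCast_prime_residue (p := p) hA
  have hb1 : v1 ∈ riemannRochSpace (m.Kb + m.Cb) := by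
    obtain ⟨v, hv, hQ⟩ := m.exists_hasLog hpk h1
    rw [hv1.unique h1 hv, Curve.mem_riemannRochSpace]
    intro Q
    rw [Finsupp.add_apply]
    by_cases hx : 0 ≤ Q.ord (m.S.red m.x)
    · exact ((hQ Q).2 (hfin Q hx)).mono (by have := m.Cb_nonneg Q; omega)
    · exact (hQ Q).1.mono (by have := m.one_le_Cb (not_le.1 hx); omega)
  obtain ⟨f1, s1, hs1, hs1'⟩ := m.exists_form_lift hb1
  have hℓL : ¬ ℓ0 ∣ L := fun h => hℓ0S (dvd_mul_of_dvd_right (dvd_mul_of_dvd_left h p) E)
  set f' := ModularForm.heckeTLin 2 hℓ0 hℓL f1 - ((ℓ0 : ℂ) + 1) • f1 with hf'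
  obtain ⟨hq1, hneg1⟩ := qCoeff_eq_coeff f1 hs1
  set g : A →+* ℂ := (algebraMap Qb ℂ).comp A.subtype
  have hg : Function.Injective g := (algebraMap Qb ℂ).injective.comp Subtype.coe_injective
  have hgc : ∀ (s : LaurentSeries A) (n : ℤ), (lsC (coeffMap A.subtype s)).coeff n =
      g (s.coeff n) := lsC_coeffMap_subtype_coeff
  have hnegA : ∀ j : ℤ, j < 0 → s1.coeff j = 0 := fun j hj => hg (by
    rw [← hgc, hneg1 j hj, map_zero])
  set s' : LaurentSeries A := HahnSeries.ofPowerSeries ℤ A (PowerSeries.mk fun n : ℕ =>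
    heckeC ℓ0 s1 (n : ℤ) - ((ℓ0 : A) + 1) * s1.coeff (n : ℤ))
  have hq' : ∀ n : ℕ, qCoeff f' n = g (s'.coeff (n : ℤ)) := fun n => by
    rw [HahnSeries.ofPowerSeries_apply_coeff, PowerSeries.coeff_mk, map_sub, map_mul, map_add,
      map_one, map_natCast]
    have hT := ModularFormClass.qCoeff_heckeT f1
      (CongruenceSubgroup.one_mem_strictPeriods_Gamma0 L) hℓ0.ne_zero n
    rw [hf', qCoeff_heckeTLin_sub_smul f1 hℓ0 hℓL, hT, ModularForm.coeffHeckeT]
    simp only [hq1, hgc, heckeC, map_add, Nat.cast_mul]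
    by_cases hd : ℓ0 ∣ n
    · rw [if_pos hd, if_pos (Int.natCast_dvd_natCast.2 hd), map_mul, map_natCast,
        Int.natCast_div]
      norm_num
    · rw [if_neg hd, if_neg (fun h => hd (Int.natCast_dvd_natCast.1 h)), map_zero]
  have hs' : HasLoc (qw 1) f' (lsC (coeffMap A.subtype s')) := by
    have h := hasLoc_qExpansion (w := 1) (g := (f' : ℍ → ℂ)) (ModularFormClass.holo f')
      (by
        rw [Nat.cast_one]
        exact SlashInvariantFormClass.periodic_comp_ofComplex f'
          (CongruenceSubgroup.one_mem_strictPeriods_Gamma0 L))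
      (ModularFormClass.bdd_at_infty f')
    rw [Nat.cast_one] at h
    convert h using 1
    ext j
    rw [hgc]
    rcases le_or_gt 0 j with hj | hj
    · lift j to ℕ using hj
      refine (hq' j).symm.trans ?_
      rw [HahnSeries.ofPowerSeries_apply_coeff]
      rfl
    · rw [ModularCurve.ofPowerSeries_coeff_of_neg _ hj, map_zero,
        ModularCurve.ofPowerSeries_coeff_of_neg _ hj]
  obtain ⟨w, hw, hws⟩ := m.exists_of_form f' hs'
  set γ : k := (b ℓ0 : k) - ((ℓ0 : k) + 1)
  have hγ : γ ≠ 0 := sub_ne_zero.2 hℓ0b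
  set G2 := (v2 : LaurentSeries k) * thetaSer (jqModC k) with hG2
  set G1 := (v1 : LaurentSeries k) * thetaSer (jqModC k) with hG1
  -- the image of the first form
  have key : ∀ n : ℤ, heckeC ℓ0 G1 n - ((ℓ0 : k) + 1) * G1.coeff n = γ * G2.coeff n := fun n => by
    have h3 := hdiff n
    rw [heckeC_sub, heig ℓ0 hℓ0 hℓ0S, HahnSeries.coeff_sub] at h3
    simp only [γ]
    linear_combination -h3
  have hwG : (w : LaurentSeries k) * thetaSer (jqModC k) = HahnSeries.C γ * G2 := by
    rw [hws]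
    ext n
    rw [HahnSeries.C_apply, HahnSeries.coeff_single_zero_mul, ← key, ← hs1',
      ModularCurve.coeffMap_coeff]
    rcases le_or_gt 0 n with hn | hn
    · lift n to ℕ using hn
      rw [HahnSeries.ofPowerSeries_apply_coeff, PowerSeries.coeff_mk, map_sub, map_mul, map_add,
        map_one, map_natCast, ← heckeC_coeffMap, ← ModularCurve.coeffMap_coeff ρA s1]
    · have hz : ∀ j : ℤ, j < 0 → (coeffMap ρA s1).coeff j = 0 := fun j hj => by
        rw [ModularCurve.coeffMap_coeff, hnegA j hj, map_zero]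
      rw [ModularCurve.ofPowerSeries_coeff_of_neg _ hn, map_zero, heckeC,
        hz n hn, hz _ (mul_neg_of_neg_of_pos hn (by exact_mod_cast hℓ0.pos)), mul_zero, sub_zero,
        zero_add]
      split_ifs with hd
      · rw [hz _ (Int.ediv_neg_of_neg_of_pos hn (by exact_mod_cast hℓ0.pos)), mul_zero]
      · rfl
  have hv2w : v2 = γ⁻¹ • w := Subtype.ext (mul_right_cancel₀ (isUnit_theta_jqModC k).ne_zero (by
    rw [Algebra.smul_def, MulMemClass.coe_mul, coe_algebraMap_field, mul_assoc, hwG, ← mul_assoc,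
      ← map_mul, inv_mul_cancel₀ hγ, map_one, one_mul]))
  have hv2K : v2 ∈ riemannRochSpace m.Kb := by
    obtain ⟨v, hv, hQ⟩ := m.exists_hasLog hpk h2
    rw [Curve.mem_riemannRochSpace]
    intro Q
    by_cases hx : 0 ≤ Q.ord (m.S.red m.x)
    · have h3 := Curve.mem_riemannRochSpace.1 (Submodule.smul_mem _ γ⁻¹ hw) Q
      rw [Finsupp.add_apply, m.Cb_eq_zero hx, add_zero, ← hv2w] at h3
      exact h3
    · rw [hv2.unique h2 hv]
      exact (hQ Q).2 (hcusp Q (not_le.1 hx))
  obtain ⟨f2, s2, hs2, hs2'⟩ := m.exists_cuspForm_lift hv2K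
  have h0 := eq_zero_of_cuspForm hA hlow f2 hs2 (by rw [hs2']; exact heig)
  rw [hs2', mul_eq_zero] at h0
  exact Subtype.ext (h0.resolve_right (isUnit_theta_jqModC k).ne_zero)

end FermatAgent.BAD.AtP
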