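import Fermat.Agent.Curve.ModularGenus
import Fermat.Agent.Flat.Kummer.Functions
import Fermat.Agent.Flat.Kummer.OfChar
import Fermat.Agent.BAD.Deriv
import Fermat.Agent.BAD.Lift.Root
import Fermat.Agent.Curve.Red.LevelN
import Fermat.Agent.Curve.Red.JLevel
import Fermat.Agent.Curve.Lift.Modular

/-!
# Expansions of translates of functions and of the derivative of `j`

The derivative `(1 / 2πi) dj / dτ` is holomorphic and of weight two; its series in discs have
orders one less than those of `j - a`, and at the cusps the same order as `j`.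
-/

set_option autoImplicit false

open UpperHalfPlane hiding I
open Filter Topology AlgebraicCurve
open CongruenceSubgroup (Gamma0)
open scoped MatrixGroups Manifold ModularForm
open ModularCurve (qExpand jqModC)

noncomputable section

namespace FermatAgent.BAD.AtP

open FermatAgent.Curve (jFun jField jElt jSubSeries discCoord genCoord_discCoord GenCoord qw HasLoc
  evF emb theta)
open FermatAgent.ES (act vanishOrd HasLExp HasExp)
open FermatAgent.Mazur (lsC regSub)

attribute [local instance] Mazur.embAlg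

local notation "Qb" => AlgebraicClosure ℚ
local notation "Dq" => Derivative.normalizedDerivOfComplex

variable {N : ℕ} [NeZero N]

/-- `(1 / 2πi) dj / dτ`. -/
def djFun : ℍ → ℂ := Dq jFun

/-- The derivative of `j` is holomorphic. -/
theorem mdiff_djFun : MDiff djFun :=
  Derivative.normalizedDerivOfComplex_mdifferentiable Curve.mdiff_jFun

/-- The derivative of `j` is of weight two for `SL₂(ℤ)`. -/
theorem djFun_slash (γ : SL(2, ℤ)) : djFun ∣[(2 : ℤ)] γ = djFun := by
  funext τ
  rw [ModularForm.SL_slash_apply, djFun, Curve.D_jFun, Curve.D_jFun,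
    Curve.smul_eq_denom_zpow (Curve.slash_E γ ModularForm.E₄),
    Curve.smul_eq_denom_zpow (Curve.slash_E γ ModularForm.E₆),
    Curve.smul_eq_denom_zpow (Curve.slash_discriminant γ)]
  have hd : denom (γ : GL (Fin 2) ℝ) τ ≠ 0 := denom_ne_zero _ τ
  have hΔ := ModularForm.discriminant_ne_zero τ
  simp only [zpow_neg, zpow_ofNat]
  field_simp

/-- The order of the series of a holomorphic function in a disc is its vanishing order. -/
theorem vanishOrd_eq_order {τ₀ : ℍ} {f : ℍ → ℂ} (hf : MDiff f) {P : LaurentSeries ℂ}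
    (h : HasLoc (discCoord τ₀) f P) (hP : P ≠ 0) :
    0 ≤ P.order ∧ vanishOrd f τ₀ = P.order.toNat := by
  have hf0 : f ≠ 0 := fun h0 => hP (by
    subst h0
    have h1 := HasLoc.const (t := discCoord τ₀) 0
    rw [map_zero] at h1
    exact h.unique (Curve.locCoord_discCoord τ₀) h1)
  obtain ⟨k, hk, hk'⟩ := Flat.Kummer.order_hasLoc_discCoord hf hf0 h
  exact ⟨hk' ▸ Int.natCast_nonneg k, by rw [hk, hk', Int.toNat_natCast]⟩

/-- In a disc where `j - a` has order `m > 0` the derivative of `j` has order `m - 1`. -/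
theorem exists_djSeries_disc (τ₀ : ℍ) {a : ℂ} {m : ℤ}
    (hm : (jSubSeries τ₀ a).order = m) (hm0 : 0 < m) :
    ∃ T, HasLoc (discCoord τ₀) djFun T ∧ T ≠ 0 ∧ T.order = m - 1 := by
  set g : ℍ → ℂ := fun τ => jFun τ - a
  have hg : MDiff g := Curve.mdiff_jFun_sub a
  have hne : jSubSeries τ₀ a ≠ 0 := fun h => by
    rw [h, HahnSeries.order_zero] at hm; omega
  obtain ⟨-, hgo⟩ := vanishOrd_eq_order hg (Curve.hasLoc_jSubSeries τ₀ a) hne
  rw [hm] at hgo
  obtain ⟨n, rfl⟩ : ∃ n : ℕ, m = (n : ℤ) + 1 := ⟨(m - 1).toNat, by omega⟩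
  have han : AnalyticAt ℂ (g ∘ ofComplex) (τ₀ : ℂ) := ES.analyticAt_of_mdiff hg τ₀
  have hd : analyticOrderAt (deriv (g ∘ ofComplex)) (τ₀ : ℂ) = n := by
    refine analyticOrderAt_deriv_of_pos han ?_
    rw [show analyticOrderAt (g ∘ ofComplex) (τ₀ : ℂ) = vanishOrd g τ₀ from rfl, hgo,
      show ((n : ℤ) + 1).toNat = n + 1 by omega]
    rfl
  have hD : vanishOrd djFun τ₀ = n := by
    set c : ℂ := (2 * Real.pi * Complex.I)⁻¹
    have hc : c ≠ 0 := inv_ne_zero (mul_ne_zero (mul_ne_zero two_ne_zero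
      (by exact_mod_cast Real.pi_ne_zero)) Complex.I_ne_zero)
    have e : djFun ∘ ofComplex =ᶠ[𝓝 (τ₀ : ℂ)]
        (fun _ => c) * deriv (g ∘ ofComplex) := by
      filter_upwards [isOpen_upperHalfPlaneSet.mem_nhds τ₀.im_pos] with w hw
      rw [Function.comp_apply, ofComplex_apply_of_im_pos hw, djFun,
        Derivative.normalizedDerivOfComplex, Pi.mul_apply]
      congr 1
      rw [show g ∘ ofComplex = fun z => (jFun ∘ ofComplex) z - a from rfl, deriv_sub_const]
    rw [vanishOrd, analyticOrderAt_congr e, analyticOrderAt_mul analyticAt_const han.deriv,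
      analyticAt_const.analyticOrderAt_eq_zero.2 hc, hd]
    exact zero_add _
  have hne0 : djFun ≠ 0 := fun h => by
    have htop : vanishOrd (0 : ℍ → ℂ) τ₀ = ⊤ := by
      rw [vanishOrd, analyticOrderAt_eq_top]
      exact Eventually.of_forall fun z => rfl
    rw [h, htop] at hD
    exact ENat.natCast_ne_top n hD.symm
  refine ⟨_, Curve.hasLoc_discCoord τ₀ mdiff_djFun, ?_, ?_⟩
  · intro h
    exact hne0 (HasLoc.eq_zero (Curve.locCoord_discCoord τ₀)
      (h ▸ Curve.hasLoc_discCoord τ₀ mdiff_djFun))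
  · obtain ⟨k, hk, hk'⟩ := Flat.Kummer.order_hasLoc_discCoord mdiff_djFun hne0
      (Curve.hasLoc_discCoord τ₀ mdiff_djFun)
    rw [hk', add_sub_cancel_right]
    exact_mod_cast (ENat.natCast_inj.1 (hk.symm.trans hD))

/-- The two notations for `θ = q d/dq` agree. -/
theorem theta_eq_thetaSer {K : Type*} [Field K] (s : LaurentSeries K) :
    theta s = thetaSer s := HahnSeries.ext (funext fun _ => rfl)

/-- `θ` commutes with homomorphisms of the coefficients. -/
theorem coeffMap_theta {R S : Type*} [Field R] [Field S] (f : R →+* S) (s : LaurentSeries R) :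
    ModularCurve.coeffMap f (theta s) = theta (ModularCurve.coeffMap f s) := by
  ext i
  simp [ModularCurve.coeffMap_coeff]

/-- The expansion of the derivative of `j` at `∞` is `θ` of that of `j`. -/
theorem hasLoc_djFun : HasLoc (qw 1) djFun (theta (jqModC ℂ)) := by
  have h1 : HasLExp 1 jFun (jqModC ℂ) := Curve.Red.hasLExp_of_hasLoc (by
    rw [Nat.cast_one]; exact Curve.hasLoc_jFun)
  have h2 := Curve.Red.hasLoc_of_hasLExp (hasLExp_deriv h1)
  rw [Nat.cast_one, ← theta_eq_thetaSer] at h2
  exact h2.congr_fun fun τ => by rw [Nat.cast_one, one_mul]; rfl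

theorem order_theta_jqModC : (theta (jqModC ℂ)).order = -1 ∧ theta (jqModC ℂ) ≠ 0 := by
  have ho : (jqModC ℂ).order = -1 := Curve.Red.order_jqModC ℂ
  have h := Curve.theta_order (f := jqModC ℂ) (by rw [ho]; norm_num)
  exact ⟨h.1.trans ho, h.2⟩

/-- In the coordinate of width `N` the derivative of `j` has order `-N`. -/
theorem exists_djSeries_cusp :
    ∃ T, HasLoc (qw (N : ℕ)) djFun T ∧ T ≠ 0 ∧ T.order = -(N : ℤ) := by
  have h := Curve.HasLoc.spread (w := N) hasLoc_djFun
  obtain ⟨ho, h0⟩ := order_theta_jqModC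
  refine ⟨_, h, fun h1 => h0 (ModularCurve.qExpand_injective N (h1.trans (map_zero _).symm)), ?_⟩
  rw [Curve.Red.order_qExpand N _ h0, ho]
  ring

/-- A function with an expansion without polar part is bounded at `∞`. -/
theorem isBounded_of_hasLoc {M : ℕ} [NeZero M] {f : ℍ → ℂ} {P : LaurentSeries ℂ}
    (h : HasLoc (qw (M : ℝ)) f P) (hP : P = 0 ∨ 0 ≤ P.order) : IsBoundedAtImInfty f := by
  obtain ⟨r, c, hc, hP'⟩ := Curve.Red.hasLExp_of_hasLoc h
  obtain ⟨c', hc'⟩ : PowerSeries.X ^ r ∣ c := by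
    refine PowerSeries.X_pow_dvd_iff.2 fun e he => ?_
    have h1 : P.coeff ((e : ℤ) - r) = 0 := by
      rcases hP with rfl | hP
      · rfl
      · exact HahnSeries.coeff_eq_zero_of_lt_order (by omega)
    rw [hP', show ((e : ℤ) - r) = (e : ℤ) + -(r : ℤ) by ring, HahnSeries.coeff_single_mul_add,
      one_mul, HahnSeries.ofPowerSeries_apply_coeff] at h1
    exact h1
  refine ((hc.div_qm hc').congr_fun fun τ => ?_).isBounded
  rw [mul_div_cancel_left₀ _ (pow_ne_zero r (ES.qm_ne_zero M τ))]

end FermatAgent.BAD.AtP
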