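import Fermat.Agent.BAD.AtP.Curve.Diff
import Fermat.Agent.BAD.AtP.Curve.Local

/-!
# Forms of weight two and functions with the poles of `dj` and the cusps

A function `v` with `div v + div (dj) + cusps ≥ 0` gives a modular form of weight two of level `N`
whose expansion at `∞` is `v θ j`.
-/

set_option autoImplicit false

open UpperHalfPlane hiding I
open Filter Topology AlgebraicCurve
open CongruenceSubgroup (Gamma0)
open scoped MatrixGroups Manifold ModularForm
open ModularCurve (qExpand jqModC coeffMap)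

noncomputable section

namespace FermatAgent.BAD.AtP

open FermatAgent.Curve
  (jFun jField jElt jSubSeries discCoord genCoord_discCoord genCoord_qw GenCoord
  qw HasLoc evF emb theta divisorOf divisorOf_apply OrdGE)
open FermatAgent.ES (act vanishOrd)
open FermatAgent.Mazur (lsC regSub)

attribute [local instance] Mazur.embAlg
attribute [local instance high] SubalgebraClass.toAlgebra
attribute [-instance] IsLocalRing.ResidueField.algebraOfIsIntegral IntermediateField.module'

local notation "Qb" => AlgebraicClosure ℚ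

variable {N : ℕ} [NeZero N]

/-- `j (j - 1728)`. -/
def jRam (N : ℕ) [NeZero N] : jField Qb N :=
  jElt Qb N * (jElt Qb N - algebraMap Qb (jField Qb N) 1728)

/-- `j - a` is not zero. -/
theorem jElt_sub_ne_zero (a : Qb) : jElt Qb N - algebraMap Qb (jField Qb N) a ≠ 0 := fun h =>
  Curve.transcendental_jElt (K := Qb) (N := N) (by
    rw [sub_eq_zero.1 h]; exact isAlgebraic_algebraMap _)

theorem jElt_ne_zero' : jElt Qb N ≠ 0 := by
  have := jElt_sub_ne_zero (N := N) 0
  rwa [map_zero, sub_zero] at this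

/-- `j (j - 1728)` is not zero. -/
theorem jRam_ne_zero : jRam N ≠ 0 := mul_ne_zero jElt_ne_zero' (jElt_sub_ne_zero _)

/-- The function `j (j - 1728)` on the upper half plane. -/
def jRamFun : ℍ → ℂ := fun τ => jFun τ * (jFun τ - 1728)

/-- `j (j - 1728)` is holomorphic on the upper half plane. -/
theorem mdiff_jRamFun : MDiff jRamFun := Curve.mdiff_jFun.mul (Curve.mdiff_jFun_sub 1728)

/-- `j (j - 1728)` is invariant under `SL₂(ℤ)`. -/
theorem jRamFun_smul (γ : SL(2, ℤ)) (τ : ℍ) : jRamFun (γ • τ) = jRamFun τ := by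
  simp only [jRamFun, Curve.jFun_smul]

theorem hasLoc_jElt : HasLoc (qw 1) jFun (lsC (jElt Qb N : LaurentSeries Qb)) := by
  rw [Curve.coe_jElt, show lsC (jqModC Qb) = jqModC ℂ from ModularCurve.coeffMap_jqModC _]
  exact Curve.hasLoc_jFun

omit [NeZero N] in
theorem lsC_algebraMap (a : Qb) :
    lsC ((algebraMap Qb (jField Qb N) a : jField Qb N) : LaurentSeries Qb) =
      HahnSeries.C (algebraMap Qb ℂ a) := by
  show lsC (algebraMap Qb (LaurentSeries Qb) a) = _
  rw [Curve.algebraMap_laurent, HahnSeries.C_apply]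
  exact ModularCurve.coeffMap_single _ _ _

/-- The expansion of `j (j - 1728)` at `∞`. -/
theorem hasLoc_jRam : HasLoc (qw 1) jRamFun (lsC (jRam N : LaurentSeries Qb)) := by
  have h := (hasLoc_jElt (N := N)).mul ((hasLoc_jElt (N := N)).sub (HasLoc.const (1728 : ℂ)))
  rw [jRam, MulMemClass.coe_mul, AddSubgroupClass.coe_sub, map_mul, map_sub, lsC_algebraMap,
    map_ofNat (algebraMap Qb ℂ)]
  exact h.congr_fun fun τ => rfl

/-- The expansion of `(1 / 2πi) dj / dτ` at `∞` is `θ j`. -/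
theorem hasLoc_djFun_lsC :
    HasLoc (qw 1) djFun (lsC (theta (jElt Qb N : LaurentSeries Qb))) := by
  rw [Curve.coe_jElt, show lsC (theta (jqModC Qb)) = theta (jqModC ℂ) by
    rw [show lsC (theta (jqModC Qb)) = coeffMap ES.embC.toRingHom (theta (jqModC Qb)) from rfl,
      coeffMap_theta, ModularCurve.coeffMap_jqModC]]
  exact hasLoc_djFun

theorem emb_jElt_sub {t : ℍ → ℂ} (hc : GenCoord N t) (δ : SL(2, ℤ)) (a : Qb) {S : LaurentSeries ℂ}
    (hS : HasLoc t (fun τ => jFun τ - algebraMap Qb ℂ a) S) :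
    emb (K := Qb) hc δ (jElt Qb N - algebraMap Qb (jField Qb N) a) = S := by
  refine Flat.Kummer.emb_eq_of_hasLoc (F := fun τ => jFun τ - algebraMap Qb ℂ a) ?_ hc δ
    (hS.congr_fun fun τ => ?_)
  · rw [AddSubgroupClass.coe_sub, map_sub, lsC_algebraMap]
    exact ((hasLoc_jElt (N := N)).sub (HasLoc.const (algebraMap Qb ℂ a))).congr_fun fun τ => rfl
  · show jFun (δ • τ) - _ = _
    rw [Curve.jFun_smul]

/-! ### The order of `v · dj` in every coordinate -/

section Order

variable {v : jField Qb N}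

/-- In a disc the differential has no pole. -/
theorem order_emb_mul_disc (hv : v ∈ riemannRochSpace (djDiv N + cuspDiv N)) (hv0 : v ≠ 0)
    (τ₀ : ℍ) (δ : SL(2, ℤ)) {T : LaurentSeries ℂ}
    (hT : HasLoc (discCoord τ₀) djFun T) (hT0 : T ≠ 0) :
    0 ≤ (emb (K := Qb) (genCoord_discCoord N τ₀) δ v * T).order := by
  set σ := emb (K := Qb) (genCoord_discCoord N τ₀) δ
  have hσv : σ v ≠ 0 := (_root_.map_ne_zero σ).2 hv0
  rw [HahnSeries.order_mul hσv hT0]
  obtain ⟨hTo, -⟩ := vanishOrd_eq_order mdiff_djFun hT hT0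
  by_cases hx : ∃ x0, 0 < (σ x0).order
  · obtain ⟨x0, hx0⟩ := hx
    set P := Curve.centre σ hx0
    obtain ⟨t, -, ht⟩ := Curve.exists_ord_eq_one P
    set k := (σ t).order
    have hk : 0 < k := Curve.order_uniformizer_pos σ hx0 ht
    have hj : 0 ≤ (σ (jElt Qb N)).order := by
      have h := emb_jElt_sub (genCoord_discCoord N τ₀) δ 0
        ((Curve.hasLoc_discCoord τ₀ Curve.mdiff_jFun).congr_fun fun τ => by simp)
      rw [map_zero, sub_zero] at h
      obtain ⟨c, -, hc⟩ := Flat.Kummer.order_hasLoc_discCoord Curve.mdiff_jFun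
        (fun h0 => (_root_.map_ne_zero σ).2 jElt_ne_zero' (h.trans (by
          refine (Curve.hasLoc_discCoord τ₀ Curve.mdiff_jFun).unique
            (Curve.locCoord_discCoord τ₀) ?_
          rw [h0]
          have := HasLoc.const (t := discCoord τ₀) 0
          rwa [map_zero] at this)))
        (Curve.hasLoc_discCoord τ₀ Curve.mdiff_jFun)
      rw [show σ (jElt Qb N) = _ from h, hc]
      exact Int.natCast_nonneg c
    rw [Curve.order_apply σ hx0 ht] at hj
    have hjP : 0 ≤ P.ord (jElt Qb N) := nonneg_of_mul_nonneg_right hj hk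
    obtain ⟨a, ha⟩ := Curve.exists_value P hjP Curve.transcendental_jElt
    have hm : (jSubSeries τ₀ (algebraMap Qb ℂ a)).order =
        k * P.ord (jElt Qb N - algebraMap Qb (jField Qb N) a) := by
      rw [← emb_jElt_sub (genCoord_discCoord N τ₀) δ a (Curve.hasLoc_jSubSeries τ₀ _)]
      exact Curve.order_apply σ hx0 ht _
    obtain ⟨T', hT', -, hT'o⟩ := exists_djSeries_disc τ₀ hm (mul_pos hk ha)
    rw [hT.unique (Curve.locCoord_discCoord τ₀) hT', hT'o, Curve.order_apply σ hx0 ht]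
    have h1 := (Curve.mem_riemannRochSpace_iff_ne_zero hv0).1 hv P
    rw [Finsupp.add_apply, djDiv_finite ha, cuspDiv_apply, if_neg (not_lt.2 hjP)] at h1
    nlinarith
  · push Not at hx
    have h1 := hx v
    have h2 := hx v⁻¹
    rw [map_inv₀, Curve.order_inv hσv] at h2
    omega

/-- At a cusp the differential has at most a simple pole. -/
theorem order_emb_mul_cusp (hv : v ∈ riemannRochSpace (djDiv N + cuspDiv N)) (hv0 : v ≠ 0)
    (δ : SL(2, ℤ)) {T : LaurentSeries ℂ} (hT : T ≠ 0) (hTo : T.order = -(N : ℤ)) :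
    0 ≤ (emb (K := Qb) (genCoord_qw N) δ v * T).order := by
  set σ := emb (K := Qb) (genCoord_qw N) δ
  have hj := Lift.emb_jElt_order (N := N) δ
  have hσj : σ (jElt Qb N) ≠ 0 := (_root_.map_ne_zero σ).2 jElt_ne_zero'
  have hx : 0 < (σ (jElt Qb N)⁻¹).order := by
    rw [map_inv₀, Curve.order_inv hσj, hj, neg_neg]
    exact_mod_cast Nat.pos_of_ne_zero (NeZero.ne N)
  set P := Curve.centre σ hx
  obtain ⟨t, -, ht⟩ := Curve.exists_ord_eq_one P
  rw [Curve.order_apply σ hx ht] at hj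
  have hk : 0 < (σ t).order := Curve.order_uniformizer_pos σ hx ht
  rw [HahnSeries.order_mul ((_root_.map_ne_zero σ).2 hv0) hT, hTo, Curve.order_apply σ hx ht]
  have hjP : P.ord (jElt Qb N) < 0 := by
    by_contra hle
    nlinarith [show (0 : ℤ) < N from by exact_mod_cast Nat.pos_of_ne_zero (NeZero.ne N)]
  have h1 := (Curve.mem_riemannRochSpace_iff_ne_zero hv0).1 hv P
  rw [Finsupp.add_apply, djDiv_pole hjP, cuspDiv_apply, if_pos hjP] at h1
  nlinarith

end Order

/-! ### Forms from functions -/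

omit [NeZero N] in
theorem Gamma0_periodic_mem (δ : SL(2, ℤ)) :
    δ * ModularGroup.T ^ (N : ℤ) * δ⁻¹ ∈ Gamma0 N := by
  refine (ES.goodLevel_Gamma0 N).gamma_le
    ((CongruenceSubgroup.Gamma_normal N).conj_mem _ ?_ δ)
  rw [zpow_natCast, CongruenceSubgroup.Gamma_mem, ES.T_pow_coe]; simp

/-- An invariant function with regular translates has an expansion at every cusp. -/
theorem exists_hasLoc_act {Z : ℍ → ℂ} (hinv : ∀ γ ∈ Gamma0 N, ∀ τ, Z (γ • τ) = Z τ)
    (hreg : ∀ k, act k Z ∈ regSub) (δ : SL(2, ℤ)) :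
    ∃ S, HasLoc (qw (N : ℕ)) (act δ Z) S :=
  Lift.exists_hasLoc_periodic N (hreg δ) fun τ => by
    show Z (δ • (ModularGroup.T ^ (N : ℤ) : SL(2, ℤ)) • τ) = Z (δ • τ)
    rw [← mul_smul, show δ * ModularGroup.T ^ (N : ℤ) =
      δ * ModularGroup.T ^ (N : ℤ) * δ⁻¹ * δ by group, mul_smul, hinv _ (Gamma0_periodic_mem δ)]

/-- An identity `f j (j - 1728) = Z dj` passes to the slash translates. -/
theorem slash_mul_jRam {f Z : ℍ → ℂ} (hid : f * jRamFun = Z * djFun) (δ : SL(2, ℤ)) (τ : ℍ) :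
    (f ∣[(2 : ℤ)] δ) τ * jRamFun τ = act δ Z τ * djFun τ := by
  have h1 := congrFun hid (δ • τ)
  simp only [Pi.mul_apply, jRamFun_smul] at h1
  have h2 := congrFun (djFun_slash δ) τ
  rw [ModularForm.SL_slash_apply] at h2 ⊢
  rw [← h2]
  show _ = Z (δ • τ) * _
  linear_combination (denom (δ : GL (Fin 2) ℝ) τ ^ (-2 : ℤ)) * h1

omit [NeZero N] in
/-- The translates of a function invariant under `Γ₀(N)` in weight two have period `N`. -/
theorem periodic_slash {f : ℍ → ℂ} (hf : ∀ γ ∈ Gamma0 N, f ∣[(2 : ℤ)] γ = f) (δ : SL(2, ℤ)) :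
    Function.Periodic ((f ∣[(2 : ℤ)] δ) ∘ ofComplex) ((N : ℝ) : ℂ) := by
  refine Curve.periodic_comp_ofComplex_of_vadd fun τ => ?_
  have e : (f ∣[(2 : ℤ)] δ) ∣[(2 : ℤ)] (ModularGroup.T ^ (N : ℤ) : SL(2, ℤ)) = f ∣[(2 : ℤ)] δ := by
    rw [← SlashAction.slash_mul, show δ * ModularGroup.T ^ (N : ℤ) =
      δ * ModularGroup.T ^ (N : ℤ) * δ⁻¹ * δ by group, SlashAction.slash_mul,
      hf _ (Gamma0_periodic_mem δ)]
  have h := congrFun e τ
  rw [ModularForm.SL_slash_apply, modular_T_zpow_smul] at h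
  have hd : denom ((ModularGroup.T ^ (N : ℤ) : SL(2, ℤ)) : GL (Fin 2) ℝ) τ = 1 := by
    rw [ModularGroup.denom_apply, ModularGroup.coe_T_zpow]
    simp
  rw [hd, one_zpow, mul_one] at h
  simpa using h

/-- Away from the poles of `j` the product with `j (j - 1728)` has no poles. -/
theorem divisorOf_mul_jRam_nonneg {v : jField Qb N}
    (hv : v ∈ riemannRochSpace (djDiv N + cuspDiv N)) (hv0 : v ≠ 0) (P : Place Qb (jField Qb N))
    (hP : 0 ≤ P.ord (jElt Qb N)) : 0 ≤ (divisorOf (v * jRam N)) P := by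
  obtain ⟨a, ha⟩ := Curve.exists_value P hP Curve.transcendental_jElt
  have h1 := (Curve.mem_riemannRochSpace_iff_ne_zero hv0).1 hv P
  rw [Finsupp.add_apply, djDiv_finite ha, cuspDiv_apply, if_neg (not_lt.2 hP)] at h1
  have h1728 : 0 ≤ P.ord (jElt Qb N - algebraMap Qb (jField Qb N) 1728) :=
    (Curve.ordGE_iff_le (jElt_sub_ne_zero _)).1
      ((show OrdGE P 0 (jElt Qb N) from Or.inr hP).sub (Curve.ordGE_algebraMap _))
  rw [divisorOf_apply, P.ord_mul hv0 jRam_ne_zero, jRam,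
    P.ord_mul jElt_ne_zero' (jElt_sub_ne_zero _)]
  by_cases h0 : a = 0
  · subst h0
    rw [map_zero, sub_zero] at h1 ha
    omega
  by_cases h17 : a = 1728
  · subst h17; omega
  have := Curve.simple_zero Qb N h0 h17 ha
  omega

/-- **The form of a function.** -/
theorem exists_form_of_mem {v : jField Qb N} (hv : v ∈ riemannRochSpace (djDiv N + cuspDiv N)) :
    ∃ f : ModularForm (Gamma0 N) 2, HasLoc (qw 1) f
      (lsC ((v : LaurentSeries Qb) * theta (jElt Qb N : LaurentSeries Qb))) := by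
  rcases eq_or_ne v 0 with rfl | hv0
  · refine ⟨0, ?_⟩
    rw [ZeroMemClass.coe_zero, zero_mul, map_zero, ← map_zero (HahnSeries.C (Γ := ℤ) (R := ℂ))]
    exact HasLoc.const 0
  set z := v * jRam N
  have hz0 : z ≠ 0 := mul_ne_zero hv0 jRam_ne_zero
  have hpos := divisorOf_mul_jRam_nonneg hv hv0
  obtain ⟨Z, hZ, -, -, hinv, hreg, hloc⟩ := Flat.Kummer.exists_fun (n := 1) hz0
    (D := divisorOf z) (one_smul ℕ _).symm hpos
  have hne : jRamFun ≠ 0 := fun h => (_root_.map_ne_zero lsC).2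
    (fun h0 => jRam_ne_zero (N := N) (Subtype.ext h0))
    ((hasLoc_jRam (N := N)).unique (Curve.locCoord_qw one_pos)
      (by rw [h, ← map_zero (HahnSeries.C (Γ := ℤ) (R := ℂ))]; exact HasLoc.const 0))
  obtain ⟨f, hf, hfe⟩ := PSEMI.exists_quotient (u := Z * djFun) (hZ.mul mdiff_djFun) mdiff_jRamFun
    hne fun τ₀ => by
      set hc := genCoord_discCoord N τ₀
      have hJ : HasLoc (discCoord τ₀) (act 1 jRamFun) _ :=
        (Curve.hasLoc_discCoord τ₀ mdiff_jRamFun).congr_fun fun τ => by rw [ES.act_one]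
      have hJe := Flat.Kummer.emb_eq_of_hasLoc (hasLoc_jRam (N := N)) hc 1 hJ
      have hZl : HasLoc (discCoord τ₀) (act 1 Z) _ :=
        (Curve.hasLoc_discCoord τ₀ hZ).congr_fun fun τ => by rw [ES.act_one]
      have hZe := Flat.Kummer.emb_eq_of_hasLoc hloc hc 1 hZl
      have hT := Curve.hasLoc_discCoord τ₀ mdiff_djFun
      have hu := (Curve.hasLoc_discCoord τ₀ hZ).mul hT
      rw [← hZe, map_mul] at hu
      have hJl := Curve.hasLoc_discCoord τ₀ mdiff_jRamFun
      rw [← hJe] at hJl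
      by_cases hT0 : (HahnSeries.ofPowerSeries ℤ ℂ
          (Curve.taylorPS (Curve.discFun τ₀ djFun))) = 0
      · have : Z * djFun = 0 := by
          rw [HasLoc.eq_zero (f := djFun) (Curve.locCoord_discCoord τ₀) (hT0 ▸ hT), mul_zero]
        rw [this, show vanishOrd (0 : ℍ → ℂ) τ₀ = ⊤ by
          rw [vanishOrd, analyticOrderAt_eq_top]; exact Eventually.of_forall fun z => rfl]
        exact le_top
      have hvT := order_emb_mul_disc hv hv0 τ₀ 1 hT hT0
      have hσJ : emb (K := Qb) hc 1 (jRam N) ≠ 0 := (_root_.map_ne_zero _).2 jRam_ne_zero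
      have hσv : emb (K := Qb) hc 1 v ≠ 0 := (_root_.map_ne_zero _).2 hv0
      have e : emb (K := Qb) hc 1 v * emb (K := Qb) hc 1 (jRam N) *
          HahnSeries.ofPowerSeries ℤ ℂ (Curve.taylorPS (Curve.discFun τ₀ djFun)) =
          emb (K := Qb) hc 1 (jRam N) * (emb (K := Qb) hc 1 v *
            HahnSeries.ofPowerSeries ℤ ℂ (Curve.taylorPS (Curve.discFun τ₀ djFun))) := by ring
      rw [e] at hu
      obtain ⟨h1, h1'⟩ := vanishOrd_eq_order mdiff_jRamFun hJl hσJ
      obtain ⟨h2, h2'⟩ := vanishOrd_eq_order (hZ.mul mdiff_djFun) hu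
        (mul_ne_zero hσJ (mul_ne_zero hσv hT0))
      rw [h1', h2', Nat.cast_le, HahnSeries.order_mul hσJ (mul_ne_zero hσv hT0)]
      exact Int.toNat_le_toNat (by linarith)
  have hid : f * jRamFun = Z * djFun := hfe.symm
  have hslash : ∀ γ ∈ Gamma0 N, f ∣[(2 : ℤ)] γ = f := fun γ hγ =>
    PSEMI.eq_of_mul_eq_mul (hf.slash 2 _) hf mdiff_jRamFun hne (funext fun τ => by
      rw [Pi.mul_apply, slash_mul_jRam hid γ τ, show act γ Z τ = Z τ from hinv γ hγ τ]
      exact (congrFun hid τ).symm)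
  have hbdd : ∀ δ : SL(2, ℤ), IsBoundedAtImInfty (f ∣[(2 : ℤ)] δ) := fun δ => by
    obtain ⟨T, hT, hT0, hTo⟩ := exists_djSeries_cusp (N := N)
    obtain ⟨S, hS⟩ := exists_hasLoc_act hinv hreg δ
    obtain ⟨J, hJ⟩ : ∃ J, HasLoc (qw (N : ℕ)) (act δ jRamFun) J :=
      ⟨_, ((Curve.HasLoc.spread (w := N) (hasLoc_jRam (N := N)))).congr_fun
        fun τ => jRamFun_smul δ τ⟩
    have hJe := Flat.Kummer.emb_eq_of_hasLoc (hasLoc_jRam (N := N)) (genCoord_qw N) δ hJ
    have hSe := Flat.Kummer.emb_eq_of_hasLoc hloc (genCoord_qw N) δ hS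
    have hJ' : HasLoc (qw (N : ℕ)) jRamFun J := hJ.congr_fun fun τ => (jRamFun_smul δ τ).symm
    obtain ⟨M, hM⟩ := Flat.Kummer.exists_bounded_quotient (w := N) (hS.mul hT) hJ' hne
      (F := f ∣[(2 : ℤ)] δ) (funext fun τ => (slash_mul_jRam hid δ τ).symm)
    obtain ⟨R, hR⟩ := Lift.exists_hasLoc_periodic N (g := f ∣[(2 : ℤ)] δ)
      ⟨hf.slash 2 _, M, hM⟩ fun τ => by
        have h := periodic_slash hslash δ (τ : ℂ)
        simp only [Function.comp_apply, ofComplex_apply] at h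
        rw [← h, modular_T_zpow_smul]
        have e : ((τ : ℂ) + ((N : ℝ) : ℂ)) = (((N : ℝ) +ᵥ τ : ℍ) : ℂ) := by
          rw [coe_vadd, add_comm]
        rw [e, ofComplex_apply]
        simp
    refine isBounded_of_hasLoc hR ?_
    have h1 : R * J = S * T := (hR.mul hJ').unique (genCoord_qw N).coord
      ((hS.mul hT).congr_fun fun τ => slash_mul_jRam hid δ τ)
    rw [← hJe, ← hSe, map_mul] at h1
    have h2 : R = emb (K := Qb) (genCoord_qw N) δ v * T :=
      mul_right_cancel₀ ((_root_.map_ne_zero (emb (K := Qb) (genCoord_qw N) δ)).2 jRam_ne_zero)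
        (h1.trans (by ring))
    rw [h2]
    exact Or.inr (order_emb_mul_cusp hv hv0 δ hT0 hTo)
  let F : ModularForm (Gamma0 N) 2 :=
    { toFun := f
      slash_action_eq' := fun A hA => by
        obtain ⟨γ, hγ, rfl⟩ := hA
        exact hslash γ hγ
      holo' := hf
      bdd_at_cusps' := fun {c} hc => by
        rw [Subgroup.IsArithmetic.isCusp_iff_isCusp_SL2Z] at hc
        rw [OnePoint.isBoundedAt_iff_forall_SL2Z hc]
        exact fun γ _ => hbdd γ }
  have hper : ∀ τ : ℍ, f ((ModularGroup.T ^ ((1 : ℕ) : ℤ) : SL(2, ℤ)) • τ) = f τ := fun τ => by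
    have h := congrFun (hslash _ (Flat.Kummer.T_mem_Gamma0 (N := N))) τ
    rw [ModularForm.SL_slash_apply] at h
    rw [Nat.cast_one, zpow_one]
    simpa [ModularGroup.denom_apply, ModularGroup.coe_T] using h
  obtain ⟨R, hR⟩ := Lift.exists_hasLoc_periodic 1 (g := f)
    ⟨hf, 0, by simpa [SlashAction.slash_one] using hbdd 1⟩ hper
  rw [Nat.cast_one] at hR
  have h1 : R * lsC (jRam N : LaurentSeries Qb) =
      lsC (z : LaurentSeries Qb) * lsC (theta (jElt Qb N : LaurentSeries Qb)) :=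
    (hR.mul hasLoc_jRam).unique (Curve.locCoord_qw one_pos)
      ((hloc.mul hasLoc_djFun_lsC).congr_fun fun τ => congrFun hid τ)
  refine ⟨F, ?_⟩
  show HasLoc (qw 1) f _
  rwa [show lsC ((v : LaurentSeries Qb) * theta (jElt Qb N : LaurentSeries Qb)) = R from ?_]
  refine mul_right_cancel₀ ((_root_.map_ne_zero lsC).2 fun h0 =>
    jRam_ne_zero (N := N) (Subtype.ext h0))
    (Eq.trans ?_ h1.symm)
  rw [MulMemClass.coe_mul, map_mul, map_mul]
  ring

end FermatAgent.BAD.AtP
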