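import Fermat.Agent.BAD.AtP.Curve.Forms
import Fermat.Agent.BAD.AtP.Curve.Genus
import Fermat.Agent.BAD.AtP.Curve.Large
import Fermat.Agent.MF.IntegralStructure
import Fermat.Agent.Period.Dimension
import Fermat.Agent.Mazur.ModFun

/-!
# The functions of cusp forms of weight two

The quotient of a cusp form by `(1 / 2πi) dj / dτ` lies in the Riemann–Roch space of the divisor
of `dj`.
-/

set_option autoImplicit false

open UpperHalfPlane hiding I
open Filter Topology AlgebraicCurve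
open CongruenceSubgroup (Gamma0)
open ModularForm (E₄ E₆)
open scoped MatrixGroups Manifold ModularForm

noncomputable section

namespace FermatAgent.BAD.AtP

open FermatAgent.Curve
  (jFun jField jElt jSubSeries discCoord genCoord_discCoord genCoord_qw GenCoord
  qw HasLoc emb theta OrdGE cosetEmb familyAt familyInfty)
open FermatAgent.ES (act)
open FermatAgent.Mazur (lsC regSub)

attribute [local instance] Mazur.embAlg
attribute [local instance high] SubalgebraClass.toAlgebra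
attribute [-instance] IsLocalRing.ResidueField.algebraOfIsIntegral IntermediateField.module'

local notation "Qb" => AlgebraicClosure ℚ
local notation "Δ" => ModularForm.discriminant

variable {N : ℕ} [NeZero N]

variable (N) in
/-- **The genus of `X₀(N)`.** -/
theorem rGenus_jField :
    Curve.rGenus Qb (jField Qb N) = Module.finrank ℂ (CuspForm (Gamma0 N) 2) := by
  rw [← Curve.Jac.genusFF_eq, Nat.cast_inj]
  have h1 := (Period.twelve_mul_finrank_cuspForm N).2
  rw [Period.finrank_parabolicHoms (Gamma0 N) ℂ, ← two_mul_genusFF_eq_parRank] at h1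
  omega

variable (N) in
/-- The degree of the canonical divisor. -/
theorem degree_djDiv :
    Divisor.degree (djDiv N) = 2 * (Module.finrank ℂ (CuspForm (Gamma0 N) 2) : ℤ) - 2 := by
  have h1 := (Period.twelve_mul_finrank_cuspForm N).1
  have h2 := six_mul_degree_djDiv N
  omega

/-- `- f E₄ E₆ / Δ`. -/
def zFun (f : ℍ → ℂ) : ℍ → ℂ := fun τ => -(f τ * E₄ τ * E₆ τ) / Δ τ

theorem mdiff_zFun {f : ℍ → ℂ} (hf : MDiff f) : MDiff (zFun f) :=
  MDifferentiable.div ((hf.mul (ModularFormClass.holo E₄)).mul (ModularFormClass.holo E₆)).neg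
    Curve.mdiff_discriminant fun τ => ModularForm.discriminant_ne_zero τ

theorem mul_jRamFun_eq (f : ℍ → ℂ) : f * jRamFun = zFun f * djFun := by
  funext τ
  have hΔ := ModularForm.discriminant_ne_zero τ
  simp only [Pi.mul_apply, jRamFun, zFun, djFun]
  rw [Curve.jFun_sub_1728, Curve.D_jFun, jFun]
  field_simp

theorem act_zFun (f : ℍ → ℂ) (δ : SL(2, ℤ)) : act δ (zFun f) = zFun (f ∣[(2 : ℤ)] δ) := by
  funext τ
  have hd : denom (δ : GL (Fin 2) ℝ) τ ≠ 0 := denom_ne_zero _ τ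
  have hΔ := ModularForm.discriminant_ne_zero τ
  show zFun f (δ • τ) = _
  simp only [zFun, ModularForm.SL_slash_apply,
    Curve.smul_eq_denom_zpow (Curve.slash_E δ E₄), Curve.smul_eq_denom_zpow (Curve.slash_E δ E₆),
    Curve.smul_eq_denom_zpow (Curve.slash_discriminant δ), zpow_neg, zpow_ofNat]
  field_simp

theorem zFun_mem_regSub {f : ℍ → ℂ} (hf : MDiff f) (hb : IsBoundedAtImInfty f) :
    zFun f ∈ regSub := by
  refine ⟨mdiff_zFun hf, 1, ?_⟩
  have hE : ∀ {k : ℤ} (g : ModularForm 𝒮ℒ k), IsBoundedAtImInfty (g : ℍ → ℂ) := fun g =>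
    ModularFormClass.bdd_at_infty g
  have h2 := (((hb.mul (hE E₄)).mul (hE E₆)).neg_left).mul
    Curve.isBoundedAtImInfty_qw_div_discriminant
  refine (h2.congr_left fun τ => ?_).congr_right fun τ => by simp
  show -(f τ * E₄ τ * E₆ τ) * (qw 1 τ / Δ τ) = qw 1 τ ^ 1 * zFun f τ
  simp only [zFun, pow_one]
  ring

/-- The `q`-expansion is an expansion. -/
theorem hasLoc_qExpansion {w : ℕ} [NeZero w] {g : ℍ → ℂ} (hg : MDiff g)
    (hper : Function.Periodic (g ∘ ofComplex) ((w : ℝ) : ℂ)) (hb : IsBoundedAtImInfty g) :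
    HasLoc (qw (w : ℝ)) g (HahnSeries.ofPowerSeries ℤ ℂ (qExpansion (w : ℝ) g)) := by
  have hw : (0 : ℝ) < w := Nat.cast_pos.2 (Nat.pos_of_ne_zero (NeZero.ne w))
  have e : (fun τ : ℍ => Function.Periodic.qParam (w : ℝ) τ ^ 0 * g τ) = g :=
    funext fun τ => by rw [pow_zero, one_mul]
  have h := Curve.hasLoc_qParam (f := g) hw 0 (by rwa [e]) (by rwa [e]) (by rwa [e])
  rwa [e, Nat.cast_zero, neg_zero, HahnSeries.single_zero_one, one_mul] at h

/-- An expansion of a function tending to zero has positive order. -/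
theorem exists_hasLoc_of_zero {w : ℕ} [NeZero w] {g : ℍ → ℂ} (hg : MDiff g)
    (hper : Function.Periodic (g ∘ ofComplex) ((w : ℝ) : ℂ)) (h0 : IsZeroAtImInfty g) :
    ∃ P, HasLoc (qw (w : ℝ)) g P ∧ ∀ j : ℤ, j ≤ 0 → P.coeff j = 0 := by
  refine ⟨_, hasLoc_qExpansion hg hper h0.isBoundedAtImInfty, fun j hj => ?_⟩
  rcases hj.lt_or_eq with hj | rfl
  · exact ModularCurve.ofPowerSeries_coeff_of_neg _ hj
  · rw [show (0 : ℤ) = ((0 : ℕ) : ℤ) from rfl, HahnSeries.ofPowerSeries_apply_coeff]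
    exact tendsto_nhds_unique (Curve.tendsto_coeff_zero
      (Nat.cast_pos.2 (Nat.pos_of_ne_zero (NeZero.ne w))) hper hg h0.isBoundedAtImInfty) h0

omit [NeZero N] in
theorem zFun_invariant {f : ℍ → ℂ} (hf : ∀ γ ∈ Gamma0 N, f ∣[(2 : ℤ)] γ = f) :
    ∀ γ ∈ Gamma0 N, ∀ τ, zFun f (γ • τ) = zFun f τ := fun γ hγ τ => by
  show act γ (zFun f) τ = zFun f τ
  rw [act_zFun, hf γ hγ]

theorem exists_jSub_order (a : Qb) : ∃ (τ₀ : ℍ) (m : ℕ), 0 < m ∧
    (jSubSeries τ₀ (algebraMap Qb ℂ a)).order = (m : ℤ) := by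
  by_cases h0 : a = 0
  · exact ⟨_, 3, by norm_num, h0 ▸ Curve.jSubSeries_zero_order Qb⟩
  by_cases h1 : a = 1728
  · exact ⟨_, 2, two_pos, h1 ▸ Curve.jSubSeries_1728_order Qb⟩
  obtain ⟨τ₀, hτ₀⟩ := Curve.exists_jFun_eq (algebraMap Qb ℂ a)
  refine ⟨τ₀, 1, one_pos, ?_⟩
  rw [Nat.cast_one]
  exact Curve.order_jSubSeries_generic hτ₀ ((_root_.map_ne_zero _).2 h0) fun h =>
    h1 ((algebraMap Qb ℂ).injective (h.trans (map_ofNat _ _).symm))

/-- The translates of `- f E₄ E₆ / Δ` are regular at infinity. -/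
theorem act_zFun_mem_regSub {f : ℍ → ℂ} (hmd1 : MDiff f)
    (hb : ∀ δ : SL(2, ℤ), IsBoundedAtImInfty (f ∣[(2 : ℤ)] δ)) (δ : SL(2, ℤ)) :
    act δ (zFun f) ∈ regSub := by
  rw [act_zFun]
  exact zFun_mem_regSub (hmd1.slash 2 _) (hb δ)

/-- The function of a form at a finite place. -/
theorem neg_le_ord_of_finite {f : ℍ → ℂ} (hmd1 : MDiff f) {v : jField Qb N} (hv0 : v ≠ 0)
    (hzloc : HasLoc (qw 1) (zFun f) (lsC ((v * jRam N : jField Qb N) : LaurentSeries Qb)))
    (c : ℤ) {P : Place Qb (jField Qb N)} (hP : 0 ≤ P.ord (jElt Qb N)) :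
    -(djDiv N + c • cuspDiv N) P ≤ P.ord v := by
  classical
  have hmd : ∀ δ : SL(2, ℤ), MDiff (f ∣[(2 : ℤ)] δ) := fun δ => hmd1.slash 2 _
  obtain ⟨a, ha⟩ := Curve.exists_value P hP Curve.transcendental_jElt
  obtain ⟨τ₀, m, hm, ho⟩ := exists_jSub_order a
  have : Nonempty (SL(2, ℤ) ⧸ Gamma0 N) := ⟨QuotientGroup.mk 1⟩
  obtain ⟨i, rfl⟩ := (familyAt Qb N τ₀ a m hm ho).exists_place_eq P ha
  set E := familyAt Qb N τ₀ a m hm ho
  set hc := genCoord_discCoord N τ₀
  set δ : SL(2, ℤ) := (i.out)⁻¹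
  obtain ⟨t, -, ht⟩ := Curve.exists_ord_eq_one (E.place i)
  have hk := Curve.order_uniformizer_pos (E.σ i) (E.order_pos i) ht
  have hja := Curve.order_apply (E.σ i) (E.order_pos i) ht
    (jElt Qb N - algebraMap Qb (jField Qb N) a)
  rw [E.σ_x, E.order_h] at hja
  have hva := Curve.order_apply (E.σ i) (E.order_pos i) ht v
  change (emb (K := Qb) hc δ v).order = (E.σ i t).order * (E.place i).ord v at hva
  obtain ⟨T, hT, hT0, hTo⟩ := exists_djSeries_disc τ₀ ho (by exact_mod_cast hm)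
  have hJ : HasLoc (discCoord τ₀) (act δ jRamFun) _ :=
    (Curve.hasLoc_discCoord τ₀ mdiff_jRamFun).congr_fun fun τ => jRamFun_smul δ τ
  have hJe := Flat.Kummer.emb_eq_of_hasLoc (hasLoc_jRam (N := N)) hc δ hJ
  have hZ := Curve.hasLoc_discCoord τ₀ (act_zFun f δ ▸ mdiff_zFun (hmd δ))
  have hZe := Flat.Kummer.emb_eq_of_hasLoc hzloc hc δ hZ
  have hF := Curve.hasLoc_discCoord τ₀ (hmd δ)
  have h1 := (hF.mul (Curve.hasLoc_discCoord τ₀ mdiff_jRamFun)).unique hc.coord
    ((hZ.mul hT).congr_fun fun τ => slash_mul_jRam (mul_jRamFun_eq f) δ τ)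
  rw [← hJe, ← hZe, map_mul] at h1
  have h2 := mul_right_cancel₀ ((_root_.map_ne_zero (emb (K := Qb) hc δ)).2 jRam_ne_zero)
    (h1.trans (show _ = emb (K := Qb) hc δ v * T * emb (K := Qb) hc δ (jRam N) by ring))
  have hσv : emb (K := Qb) hc δ v ≠ 0 := (_root_.map_ne_zero _).2 hv0
  obtain ⟨hnn, -⟩ := vanishOrd_eq_order (hmd δ) (h2 ▸ hF) (mul_ne_zero hσv hT0)
  rw [HahnSeries.order_mul hσv hT0, hva, hTo] at hnn
  have hE : (familyAt Qb N τ₀ a m hm ho).m = m := rfl
  rw [hE] at hja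
  rw [Finsupp.add_apply, Finsupp.smul_apply, djDiv_finite ha, cuspDiv_apply,
    if_neg (not_lt.2 hP), smul_zero, add_zero]
  change 0 ≤ (E.σ i t).order * (E.place i).ord v + _ at hnn
  change (0 : ℤ) < (E.σ i t).order at hk
  change (m : ℤ) = (E.σ i t).order * (E.place i).ord (jElt Qb N - algebraMap Qb (jField Qb N) a)
    at hja
  by_contra hc'
  push Not at hc'
  nlinarith

/-- The function of a form at a cusp. -/
theorem neg_le_ord_of_cusp {f : ℍ → ℂ} (hf : ∀ γ ∈ Gamma0 N, f ∣[(2 : ℤ)] γ = f) (hmd1 : MDiff f)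
    (hb : ∀ δ : SL(2, ℤ), IsBoundedAtImInfty (f ∣[(2 : ℤ)] δ)) {e : ℤ} (he1 : e ≤ 1)
    (hord : ∀ (δ : SL(2, ℤ)) (j : ℤ), j < e → (HahnSeries.ofPowerSeries ℤ ℂ
      (qExpansion (N : ℝ) (f ∣[(2 : ℤ)] δ))).coeff j = 0)
    {v : jField Qb N} (hv0 : v ≠ 0)
    (hzloc : HasLoc (qw 1) (zFun f) (lsC ((v * jRam N : jField Qb N) : LaurentSeries Qb)))
    {P : Place Qb (jField Qb N)} (hP : P.ord (jElt Qb N) < 0) :
    -(djDiv N + (1 - e) • cuspDiv N) P ≤ P.ord v := by
  classical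
  have : Nonempty (SL(2, ℤ) ⧸ Gamma0 N) := ⟨QuotientGroup.mk 1⟩
  obtain ⟨i, rfl⟩ := (familyInfty Qb N).exists_place_eq P (by rw [Place.ord_inv]; omega)
  set E := familyInfty Qb N
  set hc := genCoord_qw N
  set δ : SL(2, ℤ) := (i.out)⁻¹
  obtain ⟨t, -, ht⟩ := Curve.exists_ord_eq_one (E.place i)
  have hk := Curve.order_uniformizer_pos (E.σ i) (E.order_pos i) ht
  have hja := Curve.order_apply (E.σ i) (E.order_pos i) ht (jElt Qb N)⁻¹
  rw [E.σ_x, E.order_h, Place.ord_inv] at hja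
  have hva := Curve.order_apply (E.σ i) (E.order_pos i) ht v
  change (emb (K := Qb) hc δ v).order = (E.σ i t).order * (E.place i).ord v at hva
  obtain ⟨T, hT, hT0, hTo⟩ := exists_djSeries_cusp (N := N)
  obtain ⟨SZ, hZ⟩ := exists_hasLoc_act (zFun_invariant hf) (act_zFun_mem_regSub hmd1 hb) δ
  obtain ⟨J, hJ⟩ : ∃ J, HasLoc (qw (N : ℕ)) (act δ jRamFun) J :=
    ⟨_, ((Curve.HasLoc.spread (w := N) (hasLoc_jRam (N := N)))).congr_fun
      fun τ => jRamFun_smul δ τ⟩
  have hJe := Flat.Kummer.emb_eq_of_hasLoc (hasLoc_jRam (N := N)) hc δ hJ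
  have hJ' : HasLoc (qw (N : ℕ)) jRamFun J := hJ.congr_fun fun τ => (jRamFun_smul δ τ).symm
  have hZe := Flat.Kummer.emb_eq_of_hasLoc hzloc hc δ hZ
  obtain ⟨R, hR, hRcoeff⟩ : ∃ R, HasLoc (qw (N : ℕ)) (f ∣[(2 : ℤ)] δ) R ∧
      ∀ j : ℤ, j < e → R.coeff j = 0 :=
    ⟨_, hasLoc_qExpansion (w := N) (hmd1.slash 2 δ) (periodic_slash hf δ) (hb δ), hord δ⟩
  have h1 := (hR.mul hJ').unique hc.coord ((hZ.mul hT).congr_fun fun τ =>
    slash_mul_jRam (mul_jRamFun_eq f) δ τ)
  rw [← hJe, ← hZe, map_mul] at h1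
  have h2 := mul_right_cancel₀ ((_root_.map_ne_zero (emb (K := Qb) hc δ)).2 jRam_ne_zero)
    (h1.trans (show _ = emb (K := Qb) hc δ v * T * emb (K := Qb) hc δ (jRam N) by ring))
  have hσv : emb (K := Qb) hc δ v ≠ 0 := (_root_.map_ne_zero _).2 hv0
  have hpos : e ≤ R.order := by
    by_contra hle
    push Not at hle
    exact HahnSeries.coeff_order_eq_zero.not.2 (h2 ▸ mul_ne_zero hσv hT0) (hRcoeff _ hle)
  rw [h2, HahnSeries.order_mul hσv hT0, hva, hTo] at hpos
  have hE : (familyInfty Qb N).m = N := rfl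
  rw [hE] at hja
  rw [Finsupp.add_apply, Finsupp.smul_apply, djDiv_pole hP, cuspDiv_apply, if_pos hP,
    smul_eq_mul, mul_one]
  change e ≤ (E.σ i t).order * (E.place i).ord v + _ at hpos
  change (0 : ℤ) < (E.σ i t).order at hk
  change (N : ℤ) = (E.σ i t).order * -(E.place i).ord (jElt Qb N) at hja
  by_contra hc'
  push Not at hc'
  nlinarith

/-- **The function of a form.** -/
theorem exists_mem_of_fun {f : ℍ → ℂ} (hf : ∀ γ ∈ Gamma0 N, f ∣[(2 : ℤ)] γ = f) (hmd1 : MDiff f)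
    (hb : ∀ δ : SL(2, ℤ), IsBoundedAtImInfty (f ∣[(2 : ℤ)] δ)) {e : ℤ} (he1 : e ≤ 1)
    (hord : ∀ (δ : SL(2, ℤ)) (j : ℤ), j < e → (HahnSeries.ofPowerSeries ℤ ℂ
      (qExpansion (N : ℝ) (f ∣[(2 : ℤ)] δ))).coeff j = 0)
    {s : LaurentSeries Qb} (hs : HasLoc (qw 1) f (lsC s)) :
    ∃ v : jField Qb N, v ∈ riemannRochSpace (djDiv N + (1 - e) • cuspDiv N) ∧
      (v : LaurentSeries Qb) * theta (jElt Qb N : LaurentSeries Qb) = s := by
  classical
  have hreg := act_zFun_mem_regSub hmd1 hb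
  have hinv := zFun_invariant hf
  obtain ⟨S, hS⟩ := Flat.Kummer.exists_hasLoc_of_invariant hinv (ES.act_one (zFun f) ▸ hreg 1)
  set θj := theta (jElt Qb N : LaurentSeries Qb) with hθj
  have hθ0 : θj ≠ 0 := by
    intro h
    obtain ⟨T, hT, hT0, -⟩ := exists_djSeries_cusp (N := 1)
    refine hT0 ?_
    rw [Nat.cast_one] at hT
    refine hT.unique (Curve.locCoord_qw one_pos) ?_
    have h1 := hasLoc_djFun_lsC (N := N)
    rwa [← hθj, h, map_zero] at h1
  set s' : LaurentSeries Qb := s * (jRam N : LaurentSeries Qb) * θj⁻¹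
  have hSs : S = lsC s' := by
    have h1 := (hS.mul (hasLoc_djFun_lsC (N := N))).unique (Curve.locCoord_qw one_pos)
      ((hs.mul (hasLoc_jRam (N := N))).congr_fun fun τ => (congrFun (mul_jRamFun_eq f) τ).symm)
    rw [← map_mul lsC] at h1
    rw [map_mul, map_inv₀, ← h1, mul_assoc, mul_inv_cancel₀ ((_root_.map_ne_zero lsC).2 hθ0),
      mul_one]
  set z : jField Qb N := ⟨s', Mazur.mem_jField_of_invariant hinv hreg (hSs ▸ hS)⟩
  have hzloc : HasLoc (qw 1) (zFun f) (lsC (z : LaurentSeries Qb)) := hSs ▸ hS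
  set v : jField Qb N := z / jRam N
  have hJ0 : (jRam N : LaurentSeries Qb) ≠ 0 := fun h => jRam_ne_zero (Subtype.ext h)
  have hvs : (v : LaurentSeries Qb) * θj = s := by
    rw [show (v : LaurentSeries Qb) = s' / (jRam N : LaurentSeries Qb) from
      map_div₀ (jField Qb N).val z (jRam N)]
    simp only [s']
    field_simp
  refine ⟨v, ?_, hvs⟩
  rcases eq_or_ne v 0 with hv0 | hv0
  · rw [hv0]; exact Submodule.zero_mem _
  rw [Curve.mem_riemannRochSpace_iff_ne_zero hv0]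
  have hzv : v * jRam N = z := div_mul_cancel₀ z jRam_ne_zero
  rw [← hzv] at hzloc
  intro P
  by_cases hP : 0 ≤ P.ord (jElt Qb N)
  · exact neg_le_ord_of_finite hmd1 hv0 hzloc _ hP
  · exact neg_le_ord_of_cusp hf hmd1 hb he1 hord hv0 hzloc (not_le.1 hP)

/-- **The function of a cusp form.** -/
theorem exists_mem_of_cuspForm (f : CuspForm (Gamma0 N) 2) {s : LaurentSeries Qb}
    (hs : HasLoc (qw 1) f (lsC s)) :
    ∃ v : jField Qb N, v ∈ riemannRochSpace (djDiv N) ∧
      (v : LaurentSeries Qb) * theta (jElt Qb N : LaurentSeries Qb) = s := by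
  have hf : ∀ γ ∈ Gamma0 N, (f : ℍ → ℂ) ∣[(2 : ℤ)] γ = f := fun γ hγ =>
    SlashInvariantForm.slash_action_eqn f _ ⟨γ, hγ, rfl⟩
  have hz0 : ∀ δ : SL(2, ℤ), IsZeroAtImInfty ((f : ℍ → ℂ) ∣[(2 : ℤ)] δ) := fun δ =>
    CuspFormClass.zero_at_infty_slash f _
  obtain ⟨v, hv, hvs⟩ := exists_mem_of_fun hf f.holo' (fun δ => (hz0 δ).isBoundedAtImInfty)
    le_rfl (fun δ j hj => by
      have hmd : MDiff ((f : ℍ → ℂ) ∣[(2 : ℤ)] δ) := f.holo'.slash 2 _
      obtain ⟨P, hP, hPc⟩ := exists_hasLoc_of_zero (w := N) hmd (periodic_slash hf δ) (hz0 δ)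
      rw [(hasLoc_qExpansion (w := N) hmd (periodic_slash hf δ)
        (hz0 δ).isBoundedAtImInfty).unique (genCoord_qw N).coord hP]
      exact hPc j (by omega)) hs
  exact ⟨v, by simpa using hv, hvs⟩

/-- **The function of a modular form.** -/
theorem exists_mem_of_form (f : ModularForm (Gamma0 N) 2) {s : LaurentSeries Qb}
    (hs : HasLoc (qw 1) f (lsC s)) :
    ∃ v : jField Qb N, v ∈ riemannRochSpace (djDiv N + cuspDiv N) ∧
      (v : LaurentSeries Qb) * theta (jElt Qb N : LaurentSeries Qb) = s := by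
  obtain ⟨v, hv, hvs⟩ := exists_mem_of_fun (f := f)
    (fun γ hγ => SlashInvariantForm.slash_action_eqn f _ ⟨γ, hγ, rfl⟩) f.holo'
    (fun δ => ModularFormClass.bdd_at_infty_slash f _) zero_le_one
    (fun δ j hj => ModularCurve.ofPowerSeries_coeff_of_neg _ hj) hs
  exact ⟨v, by simpa using hv, hvs⟩

variable (N) in
/-- The space of the divisor of `dj` is that of the cusp forms. -/
theorem rrDim_djDiv_and_exists_cuspForm :
    Curve.rrDim (djDiv N) = Module.finrank ℂ (CuspForm (Gamma0 N) 2) ∧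
    ∀ v ∈ riemannRochSpace (djDiv N), ∃ f : CuspForm (Gamma0 N) 2, HasLoc (qw 1) f
      (lsC ((v : LaurentSeries Qb) * theta (jElt Qb N : LaurentSeries Qb))) := by
  classical
  have hspan : Submodule.span ℂ {f : CuspForm (Gamma0 N) 2 |
      ∀ n : ℕ, ∃ m : ℤ, ModularFormClass.qCoeff f n = (m : ℂ)} = ⊤ := by
    have h := MF.hasIntegralStructure N 2
    rwa [CuspForm.HasIntegralStructure, CuspForm.intLattice,
      Submodule.span_span_of_tower] at h
  obtain ⟨b, hb, hspanb, hind⟩ := exists_linearIndependent ℂ {f : CuspForm (Gamma0 N) 2 |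
    ∀ n : ℕ, ∃ m : ℤ, ModularFormClass.qCoeff f n = (m : ℂ)}
  rw [hspan] at hspanb
  have key : ∀ f : b, ∃ v : jField Qb N, v ∈ riemannRochSpace (djDiv N) ∧
      ∃ s, HasLoc (qw 1) ((f : CuspForm (Gamma0 N) 2) : ℍ → ℂ) (lsC s) ∧
        (v : LaurentSeries Qb) * theta (jElt Qb N : LaurentSeries Qb) = s := fun f => by
    obtain ⟨s, hs⟩ : ∃ s, HasLoc (qw 1) ((f : CuspForm (Gamma0 N) 2) : ℍ → ℂ) (lsC s) := by
      obtain ⟨s, hs⟩ := Flat.Kummer.ofPowerSeries_mem_range
        (d := qExpansion 1 ((f : CuspForm (Gamma0 N) 2) : ℍ → ℂ)) fun e => by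
          obtain ⟨m, hm⟩ := hb f.2 e
          rw [show PowerSeries.coeff e (qExpansion 1 ((f : CuspForm (Gamma0 N) 2) : ℍ → ℂ)) =
            (m : ℂ) from hm]
          exact isAlgebraic_intCast _
      set g : ℍ → ℂ := ((f : CuspForm (Gamma0 N) 2) : ℍ → ℂ)
      have h1 := hasLoc_qExpansion (w := 1) (g := g) (f : CuspForm (Gamma0 N) 2).holo' ?_ ?_
      · rw [Nat.cast_one] at h1
        exact ⟨s, hs ▸ h1⟩
      · rw [Nat.cast_one]
        exact SlashInvariantFormClass.periodic_comp_ofComplex _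
          (CongruenceSubgroup.one_mem_strictPeriods_Gamma0 N)
      · exact (CuspFormClass.zero_at_infty (f : CuspForm (Gamma0 N) 2)).isBoundedAtImInfty
    obtain ⟨v, hv, hvs⟩ := exists_mem_of_cuspForm _ hs
    exact ⟨v, hv, s, hs, hvs⟩
  choose v hv s hs hvs using key
  have : Fintype b := hind.setFinite.fintype
  have hli : LinearIndependent Qb fun f : b =>
      (⟨v f, hv f⟩ : riemannRochSpace (djDiv N)) := by
    refine LinearIndependent.of_comp (riemannRochSpace (djDiv N)).subtype ?_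
    rw [Fintype.linearIndependent_iff]
    intro c hc f0
    have hser : HasLoc (qw 1) (fun τ => ∑ f : b, algebraMap Qb ℂ (c f) *
        ((f : CuspForm (Gamma0 N) 2) : ℍ → ℂ) τ)
        (lsC (∑ f : b, HahnSeries.C (c f) * s f)) := by
      rw [map_sum]
      refine (HasLoc.sum Finset.univ (v := fun (f : b) (τ : ℍ) => algebraMap Qb ℂ (c f) *
        ((f : CuspForm (Gamma0 N) 2) : ℍ → ℂ) τ) fun f _ => ?_).congr_fun fun τ => by
          rw [Finset.sum_apply]
      rw [map_mul, show lsC (HahnSeries.C (c f)) = HahnSeries.C (algebraMap Qb ℂ (c f)) by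
        rw [HahnSeries.C_apply, HahnSeries.C_apply]; exact ModularCurve.coeffMap_single _ _ _]
      exact (hs f).smul _
    have h0 : ∑ f : b, HahnSeries.C (c f) * s f = 0 := by
      have h1 := congrArg (fun x : jField Qb N => (x : LaurentSeries Qb) *
        theta (jElt Qb N : LaurentSeries Qb)) hc
      simp only [Function.comp_apply, Submodule.coe_subtype, AddSubmonoidClass.coe_finsetSum,
        ZeroMemClass.coe_zero, zero_mul, Finset.sum_mul] at h1
      refine Eq.trans (Finset.sum_congr rfl fun f _ => ?_) h1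
      rw [Algebra.smul_def, MulMemClass.coe_mul, IntermediateField.coe_algebraMap_apply,
        Curve.algebraMap_laurent, mul_assoc, hvs, HahnSeries.C_apply]
      rfl
    rw [h0, map_zero] at hser
    have h2 := HasLoc.eq_zero (Curve.locCoord_qw one_pos) hser
    have h3 := Fintype.linearIndependent_iff.1 hind (fun f => algebraMap Qb ℂ (c f))
      (DFunLike.ext _ _ fun τ => by
        simpa using congrFun h2 τ) f0
    exact (_root_.map_eq_zero _).1 h3
  have hcard : Fintype.card b = Module.finrank ℂ (CuspForm (Gamma0 N) 2) := by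
    rw [← finrank_top, ← hspanb, finrank_span_set_eq_card hind, Set.toFinset_card]
  have hdim : Curve.rrDim (djDiv N) = Module.finrank ℂ (CuspForm (Gamma0 N) 2) := by
    have h1 : (Curve.rrDim (djDiv N) : ℤ) ≤ Curve.rGenus Qb (jField Qb N) :=
      rrDim_le_of_canonical_degree (djDiv N) (by rw [degree_djDiv, rGenus_jField])
    rw [rGenus_jField] at h1
    have h2 := hli.fintype_card_le_finrank
    change Fintype.card b ≤ Curve.rrDim (djDiv N) at h2
    omega
  refine ⟨hdim, fun w hw => ?_⟩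
  have hsp := hli.span_eq_top_of_card_eq_finrank' (by rw [hcard, ← hdim]; rfl)
  obtain ⟨c, hc⟩ := (Submodule.mem_span_range_iff_exists_fun Qb).1
    (hsp ▸ Submodule.mem_top (x := (⟨w, hw⟩ : riemannRochSpace (djDiv N))))
  refine ⟨∑ f : b, algebraMap Qb ℂ (c f) • (f : CuspForm (Gamma0 N) 2), ?_⟩
  have hw' : (w : LaurentSeries Qb) * theta (jElt Qb N : LaurentSeries Qb) =
      ∑ f : b, HahnSeries.C (c f) * s f := by
    have h1 : (∑ f : b, c f • v f) = w := by
      simpa using congrArg (Subtype.val) hc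
    rw [← h1, AddSubmonoidClass.coe_finsetSum, Finset.sum_mul]
    refine Finset.sum_congr rfl fun f _ => ?_
    rw [Algebra.smul_def, MulMemClass.coe_mul, IntermediateField.coe_algebraMap_apply,
      Curve.algebraMap_laurent, mul_assoc, hvs, HahnSeries.C_apply]
    rfl
  rw [hw', map_sum]
  refine (HasLoc.sum Finset.univ (v := fun (f : b) (τ : ℍ) => algebraMap Qb ℂ (c f) *
    ((f : CuspForm (Gamma0 N) 2) : ℍ → ℂ) τ) fun f _ => ?_).congr_fun fun τ => by simp
  rw [map_mul, show lsC (HahnSeries.C (c f)) = HahnSeries.C (algebraMap Qb ℂ (c f)) by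
    rw [HahnSeries.C_apply, HahnSeries.C_apply]; exact ModularCurve.coeffMap_single _ _ _]
  exact (hs f).smul _

end FermatAgent.BAD.AtP
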