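import Fermat.Agent.BAD.AtP.Curve.Funs
import Fermat.Agent.Flat.ModularRed
import Fermat.Agent.Curve.Lift.Series

/-!
# Reduction of expansions of functions and of their derivatives by `j`

A reduction of `X₀(L)` (`ModRed`) sends the function `j` to the residual `j` and is compatible
with expansions at `∞`; a function whose finite poles have integral values of `j` and whose
expansion is integral is integral, and its reduction has the reduced expansion.
-/

set_option autoImplicit false

open AlgebraicCurve Module
open ModularCurve (coeffMap jqModC modularFunctionFieldFullC)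

noncomputable section

namespace FermatAgent.BAD.AtP

open FermatAgent.Curve (jField jElt OrdGE poleDivisor divisorOf ConstRed rGenus IsFF)

attribute [local instance] Mazur.embAlg
attribute [local instance high] SubalgebraClass.toAlgebra
attribute [-instance] IsLocalRing.ResidueField.algebraOfIsIntegral IntermediateField.module'

local notation "Qb" => AlgebraicClosure ℚ

variable {A : ValuationSubring Qb} {L : ℕ} [NeZero L]

set_option hygiene false in
local notation "k" => IsLocalRing.ResidueField A
set_option hygiene false in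
local notation "ρ" => IsLocalRing.residue A
set_option hygiene false in
local notation "E" => jField Qb L
set_option hygiene false in
local notation "Fb" => modularFunctionFieldFullC k L

/-- `θ` commutes with homomorphisms of the coefficients. -/
theorem coeffMap_thetaSer {R S : Type*} [CommRing R] [CommRing S] (f : R →+* S)
    (s : LaurentSeries R) : coeffMap f (thetaSer s) = thetaSer (coeffMap f s) := by
  ext i
  simp [ModularCurve.coeffMap_coeff]

theorem coeffMap_C {R S : Type*} [CommRing R] [CommRing S] (f : R →+* S) (a : R) :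
    coeffMap f (HahnSeries.C a) = HahnSeries.C (f a) := by
  rw [HahnSeries.C_apply, HahnSeries.C_apply, ModularCurve.coeffMap_single]

theorem isUnit_jqModC_sub (R : Type*) [CommRing R] (c : R) :
    IsUnit (jqModC R - HahnSeries.C c) := by
  refine Curve.isUnit_laurent_of_coeff (-1) (fun i hi => ?_) ?_
  · rw [HahnSeries.coeff_sub, HahnSeries.C_apply, HahnSeries.coeff_single_of_ne (by omega),
      ModularCurve.coeff_jqModC_of_lt R hi, sub_zero]
  · rw [HahnSeries.coeff_sub, HahnSeries.C_apply, HahnSeries.coeff_single_of_ne (by norm_num),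
      ModularCurve.coeff_jqModC_neg_one, sub_zero]
    exact isUnit_one

/-- `θ j` is an invertible Laurent series over any ring. -/
theorem isUnit_theta_jqModC (R : Type*) [CommRing R] : IsUnit (thetaSer (jqModC R)) := by
  refine Curve.isUnit_laurent_of_coeff (-1) (fun i hi => ?_) ?_
  · rw [coeff_thetaSer, ModularCurve.coeff_jqModC_of_lt R hi, mul_zero]
  · rw [coeff_thetaSer, ModularCurve.coeff_jqModC_neg_one, mul_one]
    exact ⟨-1, by simp⟩

/-- Constants of a field of series are constant series. -/
theorem coe_algebraMap_field {K : Type*} [Field K] (F : IntermediateField K (LaurentSeries K))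
    (a : K) : ((algebraMap K F a : F) : LaurentSeries K) = HahnSeries.C a := by
  rw [IntermediateField.coe_algebraMap_apply, ModularCurve.algebraMap_laurentSeries_eq_single,
    HahnSeries.C_apply]

variable [IsFF k (modularFunctionFieldFullC k L)]

variable (A L) in
/-- A reduction of `X₀(L)` compatible with the expansions. -/
structure ModRed where
  /-- the reduction -/
  S : ConstRed A ρ E Fb
  /-- the coordinate -/
  x : S.O
  coe_x : ((x : E) : LaurentSeries Qb) = jqModC Qb
  red_x : (S.red x : LaurentSeries k) = jqModC k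
  deg : Divisor.degree (poleDivisor (x : E) : Divisor Qb E) =
    Divisor.degree (poleDivisor (S.red x) : Divisor k Fb)
  deg_pos : 0 < Divisor.degree (poleDivisor (x : E) : Divisor Qb E)
  series : S.SeriesAt x
  gen : rGenus Qb E ≤ rGenus k Fb

/-- **A good prime gives a reduction of `X₀(L)` compatible with expansions.** -/
theorem exists_modRed {p : ℕ} [Fact p.Prime] (hA : A.LiesOverPrime p) (hL : ¬ p ∣ L) :
    Nonempty (ModRed A L) := by
  obtain ⟨S, x, h1, h2, h3, h4, h5, h6⟩ := Curve.Red.exists_constRed_series hA hL (jField Qb L) rfl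
  exact ⟨⟨S, x, h1, h2, h3, h4, h5, h6⟩⟩

namespace ModRed

variable (m : ModRed A L)

/-- The integral coordinate of the reduction is `j`. -/
theorem x_eq : (m.x : E) = jElt Qb L := Subtype.ext (m.coe_x.trans (by rw [Curve.coe_jElt]))

/-- The reduction of `j` is not zero. -/
theorem red_x_ne_zero : m.S.red m.x ≠ 0 := fun h => by
  have h1 := m.red_x
  rw [h, ZeroMemClass.coe_zero] at h1
  exact ModularCurve.jqModC_ne_zero_of_nontrivial k h1.symm

/-- The pole divisor of `j` reduces to that of the reduced `j`. -/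
theorem mapDomain_pole :
    Finsupp.mapDomain m.S.r (poleDivisor (m.x : E)) = poleDivisor (m.S.red m.x) :=
  haveI := isAlgClosed_residueField A
  m.S.mapDomain_poleDivisor m.red_x_ne_zero m.deg

/-- The finite poles of `f` have integral values of `j`. -/
def Clear (f : E) : Prop :=
  ∀ P : Place Qb E, P.ord f < 0 → 0 ≤ P.ord (m.x : E) →
    ∃ c : A, OrdGE P 1 ((m.x : E) - algebraMap Qb E (c : Qb))

/-- The finite part of a divisor has integral values of `j`. -/
def ClearDiv (D : Divisor Qb E) : Prop :=
  ∀ P : Place Qb E, 0 < D P → 0 ≤ P.ord (m.x : E) →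
    ∃ c : A, OrdGE P 1 ((m.x : E) - algebraMap Qb E (c : Qb))

/-- The sections of a divisor with integral values of `j` have integral values of `j` at their
finite poles. -/
theorem clear_of_mem {D : Divisor Qb E} (hD : m.ClearDiv D) {f : E}
    (hf : f ∈ riemannRochSpace D) : m.Clear f := fun P hP hx => by
  rcases Curve.mem_riemannRochSpace.1 hf P with h | h
  · rw [h, Place.ord_zero] at hP; omega
  · exact hD P (by omega) hx

/-- Divisors with integral values of `j` are closed under sums. -/
theorem ClearDiv.add {D D' : Divisor Qb E} (h : m.ClearDiv D) (h' : m.ClearDiv D') :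
    m.ClearDiv (D + D') := fun P hP hx => by
  rw [Finsupp.add_apply] at hP
  rcases lt_or_ge 0 (D P) with h1 | h1
  · exact h P h1 hx
  · exact h' P (by omega) hx

/-- A function with an integral unit expansion compatible with reduction. -/
def UnitSer (R : m.S.O) : Prop :=
  ∃ s : LaurentSeries A, IsUnit s ∧ coeffMap A.subtype s = ((R : E) : LaurentSeries Qb) ∧
    coeffMap ρ s = (m.S.red R : LaurentSeries k)

theorem unitSer_mul {R R' : m.S.O} (h : m.UnitSer R) (h' : m.UnitSer R') : m.UnitSer (R * R') := by
  obtain ⟨s, hu, h1, h2⟩ := h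
  obtain ⟨s', hu', h1', h2'⟩ := h'
  refine ⟨s * s', hu.mul hu', ?_, ?_⟩
  · rw [map_mul, h1, h1', MulMemClass.coe_mul, MulMemClass.coe_mul]
  · rw [map_mul, h2, h2', map_mul, MulMemClass.coe_mul]

theorem unitSer_one : m.UnitSer 1 :=
  ⟨1, isUnit_one, by rw [map_one, OneMemClass.coe_one, OneMemClass.coe_one],
    by rw [map_one, map_one, OneMemClass.coe_one]⟩

theorem unitSer_sub (c : A) : m.UnitSer (m.x - m.S.cst c) := by
  refine ⟨jqModC A - HahnSeries.C c, isUnit_jqModC_sub A c, ?_, ?_⟩
  · rw [map_sub, ModularCurve.coeffMap_jqModC, coeffMap_C, AddSubgroupClass.coe_sub,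
      AddSubgroupClass.coe_sub, m.coe_x, ConstRed.coe_cst, coe_algebraMap_field]
    rfl
  · rw [map_sub, ModularCurve.coeffMap_jqModC, coeffMap_C, map_sub, AddSubgroupClass.coe_sub,
      m.red_x, ConstRed.red_cst, coe_algebraMap_field]

/-- A unit series clears the finite poles of a function with integral values of `j` there. -/
theorem exists_clearing {f : E} (hf : m.Clear f) :
    ∃ (R : m.S.O) (N : ℕ), m.UnitSer R ∧
      f * (R : E) ∈ riemannRochSpace ((N : ℤ) • (poleDivisor (m.x : E) : Divisor Qb E)) := by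
  have := isAlgClosed_residueField A
  obtain ⟨s, N, hN⟩ := m.S.exists_mul_bounded (x := m.x) (g := f) hf
  refine ⟨(s.map fun c => m.x - m.S.cst c).prod, N, ?_, ?_⟩
  · refine Multiset.prod_induction m.UnitSer _ (fun a b => m.unitSer_mul) m.unitSer_one ?_
    intro w hw
    obtain ⟨c, -, rfl⟩ := Multiset.mem_map.1 hw
    exact m.unitSer_sub c
  · convert hN using 2
    rw [SubmonoidClass.coe_multiset_prod, Multiset.map_map]
    rfl

theorem red_ne_zero_of_unitSer {R : m.S.O} (h : m.UnitSer R) : m.S.red R ≠ 0 := by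
  obtain ⟨s, hu, -, h2⟩ := h
  intro h0
  rw [h0, ZeroMemClass.coe_zero] at h2
  exact (hu.map (coeffMap ρ)).ne_zero h2

/-- An integral function with integral values of `j` at its finite poles has an integral
expansion, which reduces to that of its reduction. -/
theorem exists_series {f : m.S.O} (hf : m.Clear (f : E)) :
    ∃ s : LaurentSeries A, coeffMap A.subtype s = ((f : E) : LaurentSeries Qb) ∧
      coeffMap ρ s = (m.S.red f : LaurentSeries k) := by
  obtain ⟨R, N, hR, hN⟩ := m.exists_clearing hf
  have hR0 := m.red_ne_zero_of_unitSer hR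
  obtain ⟨sR, hu, h1, h2⟩ := hR
  obtain ⟨sg, hg1, hg2⟩ := m.series (f * R) N (by rw [MulMemClass.coe_mul]; exact hN)
  obtain ⟨u, rfl⟩ := hu
  refine ⟨sg * (u⁻¹ : (LaurentSeries A)ˣ), ?_, ?_⟩
  · refine mul_right_cancel₀ ((u.isUnit.map (coeffMap A.subtype)).ne_zero) ?_
    rw [← map_mul, mul_assoc, Units.inv_mul, mul_one, hg1, h1, MulMemClass.coe_mul,
      MulMemClass.coe_mul]
  · refine mul_right_cancel₀ ((u.isUnit.map (coeffMap ρ)).ne_zero) ?_
    rw [← map_mul, mul_assoc, Units.inv_mul, mul_one, hg2, h2, map_mul, MulMemClass.coe_mul]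

theorem mem_of_series_of_bounded {g : E} {N : ℕ}
    (hg : g ∈ riemannRochSpace ((N : ℤ) • (poleDivisor (m.x : E) : Divisor Qb E)))
    {s : LaurentSeries A} (hs : coeffMap A.subtype s = (g : LaurentSeries Qb)) :
    ∃ h : g ∈ m.S.O, coeffMap ρ s = (m.S.red ⟨g, h⟩ : LaurentSeries k) := by
  rcases eq_or_ne g 0 with rfl | hg0
  · refine ⟨m.S.O.zero_mem, ?_⟩
    rw [ZeroMemClass.coe_zero, ← map_zero (coeffMap A.subtype)] at hs
    have : s = 0 := by
      ext i
      simpa using congrArg (fun t : LaurentSeries Qb => t.coeff i) hs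
    rw [this, map_zero, show (⟨0, m.S.O.zero_mem⟩ : m.S.O) = 0 from rfl, map_zero,
      ZeroMemClass.coe_zero]
  obtain ⟨l, h, hl, he, hh⟩ := m.S.exists_normal hg0
  have hh0 : (h : E) ∈ riemannRochSpace ((N : ℤ) • (poleDivisor (m.x : E) : Divisor Qb E)) := by
    have e : (h : E) = (l⁻¹ : Qb) • g := by
      rw [he, Algebra.smul_def, ← mul_assoc, ← map_mul, inv_mul_cancel₀ hl, map_one, one_mul]
    rw [e]
    exact Submodule.smul_mem _ _ hg
  obtain ⟨sh, h1, h2⟩ := m.series h N hh0
  obtain ⟨i, hi⟩ : ∃ i, ρ (sh.coeff i) ≠ 0 := by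
    by_contra hc
    push Not at hc
    refine hh (Subtype.ext ?_)
    rw [← h2, ZeroMemClass.coe_zero]
    ext i
    rw [ModularCurve.coeffMap_coeff, hc, HahnSeries.coeff_zero]
  have hgs : (g : LaurentSeries Qb) = HahnSeries.C l * coeffMap A.subtype sh := by
    rw [he, MulMemClass.coe_mul, coe_algebraMap_field, h1]
  have hu : IsUnit (sh.coeff i) := by
    by_contra hnu
    exact hi ((IsLocalRing.residue_eq_zero_iff _).2 ((IsLocalRing.mem_maximalIdeal _).2 hnu))
  obtain ⟨v, hv⟩ := hu
  have hlA : l ∈ A := by
    have h3 := congrArg (fun t : LaurentSeries Qb => t.coeff i) hgs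
    rw [← hs] at h3
    simp only [ModularCurve.coeffMap_coeff, HahnSeries.C_apply, HahnSeries.coeff_single_zero_mul,
      ValuationSubring.subtype_apply] at h3
    have e : l = ((s.coeff i * (v⁻¹ : Aˣ) : A) : Qb) := by
      rw [MulMemClass.coe_mul, h3, ← hv, mul_assoc, ← MulMemClass.coe_mul, Units.mul_inv,
        OneMemClass.coe_one, mul_one]
    rw [e]
    exact SetLike.coe_mem _
  have hgO : g ∈ m.S.O := he ▸ m.S.O.mul_mem (m.S.algebraMap_mem ⟨l, hlA⟩) h.2
  refine ⟨hgO, ?_⟩
  have hcg : (⟨g, hgO⟩ : m.S.O) = m.S.cst ⟨l, hlA⟩ * h := Subtype.ext he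
  have hsA : s = HahnSeries.C (⟨l, hlA⟩ : A) * sh := by
    ext j
    have h3 := congrArg (fun t : LaurentSeries Qb => t.coeff j) (hs.trans hgs)
    simp only [ModularCurve.coeffMap_coeff, HahnSeries.C_apply, HahnSeries.coeff_single_zero_mul,
      ValuationSubring.subtype_apply] at h3
    rw [HahnSeries.C_apply, HahnSeries.coeff_single_zero_mul]
    exact h3
  rw [hcg, map_mul, ConstRed.red_cst, MulMemClass.coe_mul, coe_algebraMap_field, hsA, map_mul,
    coeffMap_C, h2]

/-- **Integral expansions give integral functions.** -/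
theorem mem_of_series {f : E} (hf : m.Clear f) {s : LaurentSeries A}
    (hs : coeffMap A.subtype s = (f : LaurentSeries Qb)) :
    ∃ h : f ∈ m.S.O, coeffMap ρ s = (m.S.red ⟨f, h⟩ : LaurentSeries k) := by
  obtain ⟨R, N, hR, hN⟩ := m.exists_clearing hf
  have hR0 := m.red_ne_zero_of_unitSer hR
  obtain ⟨sR, hu, h1, h2⟩ := hR
  obtain ⟨hg, hgr⟩ := m.mem_of_series_of_bounded hN (s := s * sR) (by
    rw [map_mul, hs, h1, MulMemClass.coe_mul])
  have hRE : (R : E) ≠ 0 := fun h => hR0 (by rw [show R = 0 from Subtype.ext h, map_zero])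
  have hfO : f ∈ m.S.O := by
    have := m.S.O.mul_mem hg (m.S.inv_mem hR0)
    rwa [mul_assoc, mul_inv_cancel₀ hRE, mul_one] at this
  refine ⟨hfO, mul_right_cancel₀ ((hu.map (coeffMap ρ)).ne_zero) ?_⟩
  rw [← map_mul, hgr, h2, ← MulMemClass.coe_mul, ← map_mul]
  rfl

end ModRed

end FermatAgent.BAD.AtP
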