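import Fermat.Agent.BAD.AtP.Curve.Red

/-!
# Logarithmic derivatives of residual modular functions

Every residual function regular at a place has a derivative by `j`, with poles bounded by the
reduced divisor of `dj`; every non-zero one has a logarithmic derivative with at most simple
poles, none where its order is divisible by `p`.
-/

set_option autoImplicit false

open AlgebraicCurve Module
open ModularCurve (coeffMap jqModC modularFunctionFieldFullC)

noncomputable section

namespace FermatAgent.BAD.AtP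

open FermatAgent.Curve (jField jElt OrdGE poleDivisor divisorOf ConstRed rGenus IsFF)

attribute [local instance] Mazur.embAlg
attribute [local instance high] SubalgebraClass.toAlgebra
attribute [-instance] IsLocalRing.ResidueField.algebraOfIsIntegral IntermediateField.module'

local notation "Qb" => AlgebraicClosure ℚ

variable {A : ValuationSubring Qb} {L : ℕ} [NeZero L]

set_option hygiene false in
local notation "k" => IsLocalRing.ResidueField A
set_option hygiene false in
local notation "ρ" => IsLocalRing.residue A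
set_option hygiene false in
local notation "E" => jField Qb L
set_option hygiene false in
local notation "Fb" => modularFunctionFieldFullC k L

/-- `d` is the derivative of `z` by `j`. -/
def HasDer (z d : Fb) : Prop :=
  (d : LaurentSeries k) * thetaSer (jqModC k) = thetaSer (z : LaurentSeries k)

/-- `v` is the logarithmic derivative of `z` by `j`. -/
def HasLog (z v : Fb) : Prop :=
  (v : LaurentSeries k) * thetaSer (jqModC k) * (z : LaurentSeries k) =
    thetaSer (z : LaurentSeries k)

section

omit [NeZero L]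

theorem HasDer.hasLog {z d : Fb} (h : HasDer z d) (hz : z ≠ 0) : HasLog z (d / z) := by
  have hz' : (z : LaurentSeries k) ≠ 0 := fun h0 => hz (Subtype.ext h0)
  have e : ((d / z : Fb) : LaurentSeries k) = (d : LaurentSeries k) / (z : LaurentSeries k) :=
    map_div₀ (modularFunctionFieldFullC k L).val d z
  rw [HasLog, e, ← h]
  field_simp

/-- The logarithmic derivative is unique. -/
theorem HasLog.unique {z v v' : Fb} (hz : z ≠ 0) (h : HasLog z v) (h' : HasLog z v') : v = v' :=
  Subtype.ext (mul_right_cancel₀ (isUnit_theta_jqModC k).ne_zero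
    (mul_right_cancel₀ (fun h0 => hz (Subtype.ext h0)) (h.trans h'.symm)))

/-- The logarithmic derivative of a product is the sum. -/
theorem HasLog.mul {z z' v v' : Fb} (h : HasLog z v) (h' : HasLog z' v') :
    HasLog (z * z') (v + v') := by
  simp only [HasLog, MulMemClass.coe_mul, AddMemClass.coe_add, thetaSer_mul] at h h' ⊢
  linear_combination (z' : LaurentSeries k) * h + (z : LaurentSeries k) * h'

/-- The logarithmic derivative of `1` is zero. -/
theorem HasLog.one : HasLog (1 : Fb) 0 := by
  simp only [HasLog, OneMemClass.coe_one, ZeroMemClass.coe_zero, zero_mul]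
  rw [← map_one (HahnSeries.C (Γ := ℤ) (R := k)), thetaSer_C]

/-- The logarithmic derivative of an inverse is the opposite. -/
theorem HasLog.inv {z v : Fb} (hz : z ≠ 0) (h : HasLog z v) : HasLog z⁻¹ (-v) := by
  have hz' : (z : LaurentSeries k) ≠ 0 := fun h0 => hz (Subtype.ext h0)
  have h1 := thetaSer_mul (z : LaurentSeries k) ((z⁻¹ : Fb) : LaurentSeries k)
  rw [← MulMemClass.coe_mul, mul_inv_cancel₀ hz, OneMemClass.coe_one,
    ← map_one (HahnSeries.C (Γ := ℤ) (R := k)), thetaSer_C, IntermediateField.coe_inv] at h1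
  simp only [HasLog, IntermediateField.coe_inv, NegMemClass.coe_neg] at h ⊢
  refine mul_left_cancel₀ hz' ?_
  linear_combination h1 - (z : LaurentSeries k)⁻¹ * h

/-- The logarithmic derivative of an `n`-th power is `n` times the logarithmic derivative. -/
theorem HasLog.pow {z v : Fb} (h : HasLog z v) (n : ℕ) : HasLog (z ^ n) ((n : Fb) * v) := by
  induction n with
  | zero => rw [pow_zero, Nat.cast_zero, zero_mul]; exact HasLog.one
  | succ n ih => rw [pow_succ, Nat.cast_succ, add_mul, one_mul]; exact ih.mul h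

/-- The logarithmic derivative of an integral power. -/
theorem HasLog.zpow {z v : Fb} (hz : z ≠ 0) (h : HasLog z v) (n : ℤ) :
    HasLog (z ^ n) ((n : Fb) * v) := by
  rcases Int.eq_nat_or_neg n with ⟨m, rfl | rfl⟩
  · simpa using h.pow m
  · rw [zpow_neg, zpow_natCast, Int.cast_neg, Int.cast_natCast, neg_mul]
    exact (h.pow m).inv (pow_ne_zero m hz)

end

variable [IsFF k (modularFunctionFieldFullC k L)]

namespace ModRed

variable (m : ModRed A L)

/-- The reduced divisor of `dj`. -/
def Kb : Divisor k Fb := Finsupp.mapDomain m.S.r (djDiv L)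

/-- The reduced sum of the cusps. -/
def Cb : Divisor k Fb := Finsupp.mapDomain m.S.r (cuspDiv L)

/-- The finite part of the divisor of `dj` has integral values of `j`. -/
theorem clearDiv_djDiv : m.ClearDiv (djDiv L) := fun P hP hx => by
  rw [m.x_eq] at hx ⊢
  obtain ⟨a, ha⟩ := Curve.exists_value P hx Curve.transcendental_jElt
  rw [djDiv_finite ha] at hP
  have hG : OrdGE P 1 (jElt Qb L - algebraMap Qb E a) := Or.inr (by omega)
  rcases eq_or_ne a 0 with rfl | h0
  · exact ⟨0, by simpa using hG⟩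
  rcases eq_or_ne a 1728 with rfl | h1
  · exact ⟨1728, by
      rw [show (((1728 : A)) : Qb) = 1728 from map_ofNat A.subtype 1728]
      exact hG⟩
  have := Curve.simple_zero Qb L h0 h1 ha
  omega

/-- The sum of the cusps has no finite part. -/
theorem clearDiv_cuspDiv : m.ClearDiv (cuspDiv L) := fun P hP hx => by
  rw [m.x_eq] at hx
  rw [cuspDiv_apply, if_neg (not_lt.2 hx)] at hP
  exact absurd hP (lt_irrefl 0)

theorem clearDiv_pole : m.ClearDiv (poleDivisor (m.x : E)) := fun P hP hx => by
  rw [Curve.poleDivisor_apply] at hP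
  omega

theorem clearDiv_zeros :
    m.ClearDiv (divisorOf (m.x : E) + poleDivisor (m.x : E)) := fun P hP hx => by
  rw [Finsupp.add_apply, Curve.divisorOf_apply, Curve.poleDivisor_apply] at hP
  refine ⟨0, Or.inr ?_⟩
  rw [ZeroMemClass.coe_zero, map_zero, sub_zero]
  omega

theorem clearDiv_smul {D : Divisor Qb E} (h : m.ClearDiv D) (n : ℕ) : m.ClearDiv ((n : ℤ) • D) :=
  fun P hP hx => h P (by
    rw [Finsupp.smul_apply, smul_eq_mul] at hP
    exact pos_of_mul_pos_right hP (Int.natCast_nonneg n)) hx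

theorem der_mem {D : Divisor Qb E} (hD : 0 ≤ D) {f : E} (hf : f ∈ riemannRochSpace D) :
    der f ∈ riemannRochSpace (djDiv L + (D + D)) := by
  rw [Curve.mem_riemannRochSpace] at hf ⊢
  intro P
  have hDP : 0 ≤ D P := hD P
  simp only [Finsupp.add_apply]
  rcases eq_or_ne f 0 with rfl | hf0
  · refine (ordGE_der P (u := (0 : E)) (Or.inl rfl)).mono ?_
    omega
  by_cases h : 0 ≤ P.ord f
  · exact (ordGE_der P (Or.inr h)).mono (by omega)
  · have h1 := (ordGE_der_div P f).mul (hf P)
    rw [div_mul_cancel₀ _ hf0] at h1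
    refine h1.mono ?_
    have := (Curve.ordGE_iff_le hf0).1 (hf P)
    omega

/-- Derivatives of integral functions reduce. -/
theorem der_series {f : m.S.O} (hf : m.Clear (f : E)) (hd : m.Clear (der (f : E))) :
    ∃ h : der (f : E) ∈ m.S.O, HasDer (m.S.red f) (m.S.red ⟨_, h⟩) := by
  obtain ⟨s, hs1, hs2⟩ := m.exists_series hf
  obtain ⟨u, hu⟩ := isUnit_theta_jqModC A
  have hj : coeffMap A.subtype (u : LaurentSeries A) = thetaSer (jqModC Qb) := by
    rw [hu, coeffMap_thetaSer, ModularCurve.coeffMap_jqModC]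
  obtain ⟨h, hh⟩ := m.mem_of_series hd (s := thetaSer s * (u⁻¹ : (LaurentSeries A)ˣ)) (by
    refine mul_right_cancel₀ ((u.isUnit.map (coeffMap A.subtype)).ne_zero) ?_
    rw [← map_mul, mul_assoc, Units.inv_mul, mul_one, coeffMap_thetaSer, hs1, hj,
      ← theta_eq_thetaSer, theta_eq_der (f : E), theta_eq_thetaSer, Curve.coe_jElt])
  refine ⟨h, ?_⟩
  rw [HasDer, ← hh, ← ModularCurve.coeffMap_jqModC ρ, ← coeffMap_thetaSer, ← map_mul, ← hu,
    mul_assoc, Units.inv_mul, mul_one, coeffMap_thetaSer, hs2]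

theorem exists_der_red {D : Divisor Qb E} (hD : 0 ≤ D) (hclear : m.ClearDiv D)
    (hdim : Curve.rrDim (Finsupp.mapDomain m.S.r D) = Curve.rrDim D) {z : Fb}
    (hz : z ∈ riemannRochSpace (Finsupp.mapDomain m.S.r D)) :
    ∃ d, HasDer z d ∧
      d ∈ riemannRochSpace (m.Kb + (Finsupp.mapDomain m.S.r D + Finsupp.mapDomain m.S.r D)) := by
  have := isAlgClosed_residueField A
  obtain ⟨f, hf, rfl⟩ := m.S.exists_lift hdim hz
  have hd := der_mem hD hf
  obtain ⟨h, hh⟩ := m.der_series (m.clear_of_mem hclear hf)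
    (m.clear_of_mem (m.clearDiv_djDiv.add m (hclear.add m hclear)) hd)
  refine ⟨_, hh, ?_⟩
  have := m.S.red_mem (g := ⟨_, h⟩) hd
  rwa [Finsupp.mapDomain_add, Finsupp.mapDomain_add] at this

theorem exists_divisor_away (Q : Place k Fb) :
    ∃ D : Divisor Qb E, 0 ≤ D ∧ m.ClearDiv D ∧ 0 < Divisor.degree D ∧
      Finsupp.mapDomain m.S.r D Q = 0 := by
  have := isAlgClosed_residueField A
  by_cases hQ : 0 ≤ Q.ord (m.S.red m.x)
  · refine ⟨_, Curve.poleDivisor_nonneg _, m.clearDiv_pole, m.deg_pos, ?_⟩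
    rw [m.mapDomain_pole, Curve.poleDivisor_apply]
    omega
  · refine ⟨_, fun P => ?_, m.clearDiv_zeros, ?_, ?_⟩
    · rw [Finsupp.add_apply, Curve.divisorOf_apply, Curve.poleDivisor_apply, Finsupp.zero_apply]
      omega
    · rw [map_add, Curve.degree_divisorOf, zero_add]
      exact m.deg_pos
    · rw [Finsupp.mapDomain_add, m.S.mapDomain_r m.x m.red_x_ne_zero, m.mapDomain_pole,
        Finsupp.add_apply, Curve.divisorOf_apply, Curve.poleDivisor_apply]
      omega

/-- **Derivatives of residual functions.** -/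
theorem exists_hasDer (Q : Place k Fb) {z : Fb} (hz : OrdGE Q 0 z) :
    ∃ d, HasDer z d ∧ OrdGE Q (-m.Kb Q) d := by
  classical
  have := isAlgClosed_residueField A
  obtain ⟨D, hD, hclear, hdeg, hQD⟩ := m.exists_divisor_away Q
  obtain ⟨c, hc⟩ := m.S.exists_threshold m.gen
  set Db := Finsupp.mapDomain m.S.r D with hDb
  set M : Divisor k Fb := poleDivisor z
  have hMQ : M Q = 0 := by
    rw [Curve.poleDivisor_apply]
    rcases hz with rfl | h
    · rw [Place.ord_zero]; omega
    · omega
  have hdegb : Divisor.degree Db = Divisor.degree D := m.S.degree_mapDomain D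
  set n : ℕ := (max c (Divisor.degree M + 2 * rGenus k Fb + 1)).toNat
  have hn : max c (Divisor.degree M + 2 * rGenus k Fb + 1) ≤ (n : ℤ) * Divisor.degree D :=
    (Int.self_le_toNat _).trans (le_mul_of_one_le_right (Int.natCast_nonneg _) hdeg)
  have hlift := (hc ((n : ℤ) • D) (by
    rw [map_zsmul, smul_eq_mul]; exact (le_max_left _ _).trans hn)).2
  have hmap : Finsupp.mapDomain m.S.r ((n : ℤ) • D) = (n : ℤ) • Db := Finsupp.mapDomain_smul _ _
  set X : Divisor k Fb := (n : ℤ) • Db - M
  have hX : Divisor.degree X = (n : ℤ) * Divisor.degree D - Divisor.degree M := by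
    rw [map_sub, map_zsmul, hdegb, smul_eq_mul]
  have hbig := (le_max_right c _).trans hn
  have h1 := rrDim_eq_of_large X (by rw [hX]; omega)
  have h2 := rrDim_eq_of_large (X - Finsupp.single Q 1) (by
    rw [map_sub, hX, Divisor.degree_single, Curve.deg_eq_one Q]; push_cast; omega)
  rw [map_sub (Divisor.degree) X, Divisor.degree_single, Curve.deg_eq_one Q] at h2
  push_cast at h2
  obtain ⟨b, hb, hb'⟩ : ∃ b, b ∈ riemannRochSpace X ∧
      b ∉ riemannRochSpace (X - Finsupp.single Q 1) := by
    by_contra hcon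
    push Not at hcon
    have := Submodule.finrank_mono (show riemannRochSpace X ≤
      riemannRochSpace (X - Finsupp.single Q 1) from hcon)
    change Curve.rrDim X ≤ Curve.rrDim (X - Finsupp.single Q 1) at this
    omega
  have hb0 : b ≠ 0 := fun h => hb' (h ▸ Submodule.zero_mem _)
  have hX0 : X Q = 0 := by simp [X, hQD, hMQ]
  have hbX := (Curve.mem_riemannRochSpace_iff_ne_zero hb0).1 hb
  have hbQ : Q.ord b = 0 := by
    have h3 := hbX Q
    by_contra hne
    refine hb' ((Curve.mem_riemannRochSpace_iff_ne_zero hb0).2 fun v => ?_)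
    have h4 := hbX v
    rw [Finsupp.sub_apply, Finsupp.single_apply]
    split_ifs with hv
    · subst hv; omega
    · omega
  have hDb0 : ∀ v, 0 ≤ ((n : ℤ) • Db) v := fun v => by
    rw [Finsupp.smul_apply, smul_eq_mul]
    exact mul_nonneg (Int.natCast_nonneg n) (Finsupp.mapDomain_nonneg (f := m.S.r) hD v)
  have hbn : b ∈ riemannRochSpace ((n : ℤ) • Db) := by
    refine (Curve.mem_riemannRochSpace_iff_ne_zero hb0).2 fun v => ?_
    have := hbX v
    have hM0 : 0 ≤ M v := Curve.poleDivisor_nonneg z v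
    rw [Finsupp.sub_apply] at this
    omega
  have han : z * b ∈ riemannRochSpace ((n : ℤ) • Db) := by
    rw [Curve.mem_riemannRochSpace]
    intro v
    refine ((Curve.ordGE_self z).mul (Curve.ordGE_self b)).mono ?_
    have := hbX v
    rw [Finsupp.sub_apply, Curve.poleDivisor_apply] at this
    omega
  have hnD : (0 : Divisor Qb E) ≤ (n : ℤ) • D := fun v => by
    rw [Finsupp.smul_apply, smul_eq_mul]; exact mul_nonneg (Int.natCast_nonneg n) (hD v)
  obtain ⟨da, hda, hda'⟩ := m.exists_der_red hnD (m.clearDiv_smul hclear n) hlift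
    (z := z * b) (hmap ▸ han)
  obtain ⟨db, hdb, hdb'⟩ := m.exists_der_red hnD (m.clearDiv_smul hclear n) hlift
    (z := b) (hmap ▸ hbn)
  have hbb : ∀ d, d ∈ riemannRochSpace (m.Kb + (Finsupp.mapDomain m.S.r ((n : ℤ) • D) +
      Finsupp.mapDomain m.S.r ((n : ℤ) • D))) → OrdGE Q (-m.Kb Q) d := fun d hd => by
    refine (Curve.mem_riemannRochSpace.1 hd Q).mono ?_
    rw [hmap, Finsupp.add_apply, Finsupp.add_apply, Finsupp.smul_apply, hQD]
    simp
  refine ⟨(da - z * db) / b, ?_, ?_⟩
  · have hb1 : (b : LaurentSeries k) ≠ 0 := fun h => hb0 (Subtype.ext h)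
    have e : (((da - z * db) / b : Fb) : LaurentSeries k) =
        ((da : LaurentSeries k) - (z : LaurentSeries k) * (db : LaurentSeries k)) /
          (b : LaurentSeries k) := by
      refine (map_div₀ (modularFunctionFieldFullC k L).val _ _).trans ?_
      simp
    simp only [HasDer, MulMemClass.coe_mul, thetaSer_mul] at hda hdb ⊢
    rw [e, div_mul_eq_mul_div, div_eq_iff hb1]
    linear_combination hda - (z : LaurentSeries k) * hdb
  · rw [div_eq_mul_inv]
    refine (((hbb da hda').sub ((hz.mul (hbb db hdb')).mono (by omega))).mul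
      (Curve.ordGE_self b⁻¹)).mono ?_
    rw [Place.ord_inv, hbQ]
    omega

/-- **Logarithmic derivatives of residual functions.** -/
theorem exists_hasLog {p : ℕ} (hp : (p : k) = 0) {gb : Fb} (hgb : gb ≠ 0) :
    ∃ v, HasLog gb v ∧ ∀ Q : Place k Fb, OrdGE Q (-m.Kb Q - 1) v ∧
      ((p : ℤ) ∣ Q.ord gb → OrdGE Q (-m.Kb Q) v) := by
  have := isAlgClosed_residueField A
  have key : ∀ Q : Place k Fb, ∃ v, HasLog gb v ∧ OrdGE Q (-m.Kb Q - 1) v ∧
      ((p : ℤ) ∣ Q.ord gb → OrdGE Q (-m.Kb Q) v) := fun Q => by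
    obtain ⟨t, ht0, ht⟩ := Curve.exists_ord_eq_one Q
    obtain ⟨dt, hdt, hdt'⟩ := m.exists_hasDer Q (z := t) (Or.inr (by omega))
    set n := Q.ord gb with hn
    have htn : t ^ n ≠ 0 := zpow_ne_zero n ht0
    obtain ⟨u, hu⟩ : ∃ u, gb = t ^ n * u := ⟨gb / t ^ n, (mul_div_cancel₀ gb htn).symm⟩
    have hu0 : u ≠ 0 := fun h => hgb (by rw [hu, h, mul_zero])
    have huo : Q.ord u = 0 := by
      have h := congrArg Q.ord hu
      rw [Q.ord_mul htn hu0, Place.ord_zpow, ht, ← hn] at h
      omega
    obtain ⟨du, hdu, hdu'⟩ := m.exists_hasDer Q (z := u) (Or.inr huo.ge)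
    refine ⟨(n : Fb) * (dt / t) + du / u, ?_, ?_⟩
    · have h := ((hdt.hasLog ht0).zpow ht0 n).mul (hdu.hasLog hu0)
      rwa [← hu] at h
    have hvu : OrdGE Q (-m.Kb Q) (du / u) := by
      rw [div_eq_mul_inv]
      exact (hdu'.mul (Curve.ordGE_self u⁻¹)).mono (by rw [Place.ord_inv]; omega)
    refine ⟨OrdGE.add ?_ (hvu.mono (by omega)), fun hd => OrdGE.add ?_ hvu⟩
    · rw [div_eq_mul_inv, ← map_intCast (algebraMap k Fb)]
      exact ((Curve.ordGE_algebraMap _).mul (hdt'.mul (Curve.ordGE_self t⁻¹))).mono (by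
        rw [Place.ord_inv]; omega)
    · obtain ⟨r, hr⟩ := hd
      rw [show (n : Fb) = 0 by
        rw [hr, Int.cast_mul, Int.cast_natCast, ← map_natCast (algebraMap k Fb), hp, map_zero,
          zero_mul], zero_mul]
      exact Or.inl rfl
  obtain ⟨Q0⟩ := Curve.exists_place (K := k) (F := Fb)
  obtain ⟨v, hv, -⟩ := key Q0
  refine ⟨v, hv, fun Q => ?_⟩
  obtain ⟨v', hv', h⟩ := key Q
  rwa [hv.unique hgb hv']

end ModRed

end FermatAgent.BAD.AtP
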