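import Fermat.Agent.BAD.AtP.Curve.RedDer

/-!
# Residual differentials with bounded poles are reductions of forms of weight two
-/

set_option autoImplicit false

open AlgebraicCurve Module
open CongruenceSubgroup (Gamma0)
open ModularCurve (coeffMap jqModC modularFunctionFieldFullC)
open scoped MatrixGroups

noncomputable section

namespace FermatAgent.BAD.AtP

open FermatAgent.Curve (jField jElt OrdGE poleDivisor divisorOf ConstRed rGenus IsFF HasLoc qw)
open FermatAgent.Mazur (lsC)

attribute [local instance] Mazur.embAlg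
attribute [local instance high] SubalgebraClass.toAlgebra
attribute [-instance] IsLocalRing.ResidueField.algebraOfIsIntegral IntermediateField.module'

local notation "Qb" => AlgebraicClosure ℚ

variable {A : ValuationSubring Qb} {L : ℕ} [NeZero L]

set_option hygiene false in
local notation "k" => IsLocalRing.ResidueField A
set_option hygiene false in
local notation "ρ" => IsLocalRing.residue A
set_option hygiene false in
local notation "E" => jField Qb L
set_option hygiene false in
local notation "Fb" => modularFunctionFieldFullC k L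

variable [IsFF k (modularFunctionFieldFullC k L)]

namespace ModRed

variable (m : ModRed A L)

include m in
/-- There is a pole of `j` on `X₀(L)`. -/
theorem exists_cusp : ∃ P : Place Qb E, P.ord (jElt Qb L) < 0 := by
  by_contra h
  push Not at h
  have h0 : (poleDivisor (jElt Qb L) : Divisor Qb E) = 0 := by
    ext P
    rw [Curve.poleDivisor_apply, Finsupp.zero_apply]
    have := h P
    omega
  have := m.deg_pos
  rw [m.x_eq, h0, map_zero] at this
  omega

/-- The poles of the reduced `j` are reductions of cusps. -/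
theorem one_le_Cb {Q : Place k Fb} (hQ : Q.ord (m.S.red m.x) < 0) : 1 ≤ m.Cb Q := by
  have := isAlgClosed_residueField A
  classical
  obtain ⟨P, rfl, hP⟩ := m.S.exists_pole_over m.mapDomain_pole hQ
  have hle : Finsupp.single P (1 : ℤ) ≤ cuspDiv L := fun v => by
    rw [Finsupp.single_apply]
    split_ifs with hv
    · subst hv; rw [cuspDiv_apply, if_pos (m.x_eq ▸ hP)]
    · exact cuspDiv_nonneg v
  have h := Curve.mapDomain_mono m.S.r hle (m.S.r P)
  rwa [Finsupp.mapDomain_single, Finsupp.single_eq_same] at h

/-- The reduced sum of the cusps is effective. -/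
theorem Cb_nonneg (Q : Place k Fb) : 0 ≤ m.Cb Q :=
  Finsupp.mapDomain_nonneg (f := m.S.r) cuspDiv_nonneg Q

include m in
theorem one_le_degree_cuspDiv : 1 ≤ Divisor.degree (cuspDiv L) := by
  classical
  obtain ⟨P, hP⟩ := m.exists_cusp
  have hle : Finsupp.single P (1 : ℤ) ≤ cuspDiv L := fun v => by
    rw [Finsupp.single_apply]
    split_ifs with hv
    · subst hv; rw [cuspDiv_apply, if_pos hP]
    · exact cuspDiv_nonneg v
  have h := Curve.degree_mono hle
  rw [Divisor.degree_single, Curve.deg_eq_one P] at h
  simpa using h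

/-- The expansion of the differential of a residual function lifts. -/
theorem exists_series_mul {D : Divisor Qb E} (hD : m.ClearDiv D) {g : m.S.O}
    (hg : (g : E) ∈ riemannRochSpace D) :
    ∃ s : LaurentSeries A,
      coeffMap A.subtype s = ((g : E) : LaurentSeries Qb) * Curve.theta
        (jElt Qb L : LaurentSeries Qb) ∧
      coeffMap ρ s = (m.S.red g : LaurentSeries k) * thetaSer (jqModC k) := by
  obtain ⟨s, h1, h2⟩ := m.exists_series (m.clear_of_mem hD hg)
  refine ⟨s * thetaSer (jqModC A), ?_, ?_⟩
  · rw [map_mul, h1, coeffMap_thetaSer, ModularCurve.coeffMap_jqModC, theta_eq_thetaSer,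
      Curve.coe_jElt]
  · rw [map_mul, h2, coeffMap_thetaSer, ModularCurve.coeffMap_jqModC]

/-- **Residual differentials with simple poles at the cusps are reductions of forms.** -/
theorem exists_form_lift {v : Fb} (hv : v ∈ riemannRochSpace (m.Kb + m.Cb)) :
    ∃ (f : ModularForm (Gamma0 L) 2) (s : LaurentSeries A),
      HasLoc (qw 1) f (lsC (coeffMap A.subtype s)) ∧
      coeffMap ρ s = (v : LaurentSeries k) * thetaSer (jqModC k) := by
  have := isAlgClosed_residueField A
  have hd : 2 * rGenus Qb E - 1 ≤ Divisor.degree (djDiv L + cuspDiv L) := by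
    rw [map_add, degree_djDiv, rGenus_jField]
    have := m.one_le_degree_cuspDiv
    omega
  have hr := m.S.rGenus_eq m.gen
  have hdim : Curve.rrDim (Finsupp.mapDomain m.S.r (djDiv L + cuspDiv L)) =
      Curve.rrDim (djDiv L + cuspDiv L) := by
    have h1 := rrDim_eq_of_large _ hd
    have h2 := rrDim_eq_of_large (Finsupp.mapDomain m.S.r (djDiv L + cuspDiv L))
      (by rw [m.S.degree_mapDomain, hr]; exact hd)
    rw [m.S.degree_mapDomain, hr] at h2
    omega
  obtain ⟨g, hg, rfl⟩ := m.S.exists_lift hdim (z := v) (by rwa [Finsupp.mapDomain_add])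
  obtain ⟨s, hs, hs'⟩ := m.exists_series_mul (m.clearDiv_djDiv.add m m.clearDiv_cuspDiv) hg
  obtain ⟨f, hf⟩ := exists_form_of_mem hg
  exact ⟨f, s, hs ▸ hf, hs'⟩

/-- **Regular residual differentials are reductions of cusp forms.** -/
theorem exists_cuspForm_lift {v : Fb} (hv : v ∈ riemannRochSpace m.Kb) :
    ∃ (f : CuspForm (Gamma0 L) 2) (s : LaurentSeries A),
      HasLoc (qw 1) f (lsC (coeffMap A.subtype s)) ∧
      coeffMap ρ s = (v : LaurentSeries k) * thetaSer (jqModC k) := by
  have := isAlgClosed_residueField A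
  obtain ⟨hdimW, hform⟩ := rrDim_djDiv_and_exists_cuspForm L
  have hdim : Curve.rrDim (Finsupp.mapDomain m.S.r (djDiv L)) = Curve.rrDim (djDiv L) := by
    have h1 := m.S.rrDim_le (djDiv L)
    have h2 := rrDim_le_of_canonical_degree (Finsupp.mapDomain m.S.r (djDiv L))
      (by rw [m.S.degree_mapDomain, degree_djDiv, m.S.rGenus_eq m.gen, rGenus_jField])
    rw [m.S.rGenus_eq m.gen, rGenus_jField] at h2
    omega
  obtain ⟨g, hg, rfl⟩ := m.S.exists_lift hdim (z := v) hv
  obtain ⟨s, hs, hs'⟩ := m.exists_series_mul m.clearDiv_djDiv hg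
  obtain ⟨f, hf⟩ := hform _ hg
  exact ⟨f, s, hs ▸ hf, hs'⟩

/-- **Reductions of forms have at most simple poles at the cusps.** -/
theorem exists_of_form (f : ModularForm (Gamma0 L) 2) {s : LaurentSeries A}
    (hs : HasLoc (qw 1) f (lsC (coeffMap A.subtype s))) :
    ∃ v ∈ riemannRochSpace (m.Kb + m.Cb),
      (v : LaurentSeries k) * thetaSer (jqModC k) = coeffMap ρ s := by
  obtain ⟨g, hg, hgs⟩ := exists_mem_of_form f hs
  obtain ⟨u, hu⟩ := isUnit_theta_jqModC A
  obtain ⟨h, hh⟩ := m.mem_of_series
    (m.clear_of_mem (m.clearDiv_djDiv.add m m.clearDiv_cuspDiv) hg)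
    (s := s * (u⁻¹ : (LaurentSeries A)ˣ)) (by
      refine mul_right_cancel₀ ((u.isUnit.map (coeffMap A.subtype)).ne_zero) ?_
      rw [← map_mul, mul_assoc, Units.inv_mul, mul_one, hu, coeffMap_thetaSer,
        ModularCurve.coeffMap_jqModC, ← hgs, theta_eq_thetaSer, Curve.coe_jElt])
  refine ⟨m.S.red ⟨g, h⟩, ?_, ?_⟩
  · have := isAlgClosed_residueField A
    have := m.S.red_mem (g := ⟨g, h⟩) hg
    rwa [Finsupp.mapDomain_add] at this
  · rw [← hh, ← ModularCurve.coeffMap_jqModC ρ, ← coeffMap_thetaSer, ← map_mul, ← hu, mul_assoc,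
      Units.inv_mul, mul_one]

end ModRed

end FermatAgent.BAD.AtP
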